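import Fermat.Agent.Red.Kron.Fricke
import Fermat.Agent.Red.HKGal

/-!
# P-RED / KRON: the Fricke involution commutes with the arithmetic Galois action

`kFricke_gal` : `w (σ • f) = σ • w f` for `σ ∈ Gal(ℚ̄/ℚ)` acting on `q`-expansion coefficients.
Also `kFricke_unique` : a ring endomorphism of `F_{Nℓ}` which fixes the constants, maps
`α x` to `β x` and `β x` to `α x` is the Fricke involution.
-/

set_option autoImplicit false
set_option linter.style.haveILetI false
set_option linter.unusedSectionVars false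

open ModularCurve AlgebraicCurve IntermediateField

noncomputable section

namespace Fermat.Agent.Red.Kron

open Fermat.Agent.S24

variable (N ℓ : ℕ) [NeZero N] [NeZero ℓ]

theorem kFricke_cst (hℓ : ℓ.Prime) (hN : ¬ ℓ ∣ N) (a : Kbar) :
    kFricke N ℓ hℓ hN (cst (N * ℓ) a) = cst (N * ℓ) a :=
  (kFricke N ℓ hℓ hN).commutes a

/-- uniqueness of the Fricke involution. -/
theorem kFricke_unique (hℓ : ℓ.Prime) (hN : ¬ ℓ ∣ N) (v : FF (N * ℓ) →+* FF (N * ℓ))
    (hc : ∀ a : Kbar, v (cst (N * ℓ) a) = cst (N * ℓ) a)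
    (ha : ∀ x : FF N, v (heckeAlphaBar Kbar N ℓ x) = heckeBetaBar Kbar N ℓ x)
    (hb : ∀ x : FF N, v (heckeBetaBar Kbar N ℓ x) = heckeAlphaBar Kbar N ℓ x)
    (f : FF (N * ℓ)) : v f = kFricke N ℓ hℓ hN f := by
  induction f using kFF_induction_ab N ℓ hℓ with
  | hc a => rw [hc, kFricke_cst]
  | ha x => rw [ha, kFricke_alpha]
  | hb x => rw [hb, kFricke_beta]
  | hadd x y hx hy => rw [map_add, map_add, hx, hy]
  | hinv x hx => rw [map_inv₀, map_inv₀, hx]
  | hmul x y hx hy => rw [map_mul, map_mul, hx, hy]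

/-- **the Fricke involution commutes with the arithmetic Galois action.** -/
theorem kFricke_gal (hℓ : ℓ.Prime) (hN : ¬ ℓ ∣ N) (σ : Kbar ≃ₐ[ℚ] Kbar) (f : FF (N * ℓ)) :
    kFricke N ℓ hℓ hN (arithmeticGalois (modularFunctionFieldFull (N * ℓ)) σ • f) =
      arithmeticGalois (modularFunctionFieldFull (N * ℓ)) σ • kFricke N ℓ hℓ hN f := by
  have hA := Fermat.Agent.Red.HKGal.intertwines_heckeAlphaBar N ℓ σ
  have hB := Fermat.Agent.Red.HKGal.intertwines_heckeBetaBar N ℓ σ
  induction f using kFF_induction_ab N ℓ hℓ with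
  | hc a =>
    have h1 : arithmeticGalois (modularFunctionFieldFull (N * ℓ)) σ • cst (N * ℓ) a =
        cst (N * ℓ) (σ a) := by
      rw [SemilinearAut.smul_algebraMap, baseAut_arithmeticGalois]
      rfl
    rw [h1, kFricke_cst, kFricke_cst, h1]
  | ha x =>
    have h1 := hA x
    have h2 := hB x
    simp only [RingHom.coe_coe] at h1 h2
    rw [h1, kFricke_alpha, kFricke_alpha, h2]
  | hb x =>
    have h1 := hA x
    have h2 := hB x
    simp only [RingHom.coe_coe] at h1 h2
    rw [h2, kFricke_beta, kFricke_beta, h1]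
  | hadd x y hx hy => rw [smul_add, map_add, map_add, smul_add, hx, hy]
  | hinv x hx => rw [smul_inv'', map_inv₀, map_inv₀, smul_inv'', hx]
  | hmul x y hx hy => rw [smul_mul', map_mul, map_mul, smul_mul', hx, hy]

end Fermat.Agent.Red.Kron
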