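import Mathlib.RingTheory.LaurentSeries
import Fermat.Prelude.Def_ModularCurve_X0
import Fermat.Prelude.Def_ModularCurve_LaurentCoeff

/-!
# P-RED / KRON: twisting a Laurent series by a nonzero constant

`twistK ω s = Σ sₙ ωⁿ tⁿ` (the substitution `t ↦ ω t`), as a ring homomorphism
`LaurentSeries K →+* LaurentSeries K` for `ω ≠ 0`, over an arbitrary field `K`.
-/

set_option autoImplicit false

open HahnSeries ModularCurve

noncomputable section

namespace Fermat.Agent.Red.Kron

variable {K : Type*} [Field K]

/-- `twistK ω s = Σ sₙ ωⁿ tⁿ`. -/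
def twistK (ω : K) (s : LaurentSeries K) : LaurentSeries K where
  coeff n := s.coeff n * ω ^ n
  isPWO_support' := s.isPWO_support.mono (fun n hn => by
    simp only [Function.mem_support, ne_eq] at hn ⊢
    exact fun h0 => hn (by rw [h0, zero_mul]))

@[simp] theorem coeff_twistK (ω : K) (s : LaurentSeries K) (n : ℤ) :
    (twistK ω s).coeff n = s.coeff n * ω ^ n := rfl

theorem support_twistK {ω : K} (hω : ω ≠ 0) (s : LaurentSeries K) :
    (twistK ω s).support = s.support := by
  ext n
  simp only [HahnSeries.mem_support, coeff_twistK, ne_eq, mul_eq_zero, not_or]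
  exact ⟨fun h => h.1, fun h => ⟨h, zpow_ne_zero _ hω⟩⟩

theorem twistK_zero (ω : K) : twistK ω (0 : LaurentSeries K) = 0 := by
  ext n
  simp

theorem twistK_add (ω : K) (x y : LaurentSeries K) :
    twistK ω (x + y) = twistK ω x + twistK ω y := by
  ext n
  simp [add_mul]

theorem twistK_single (ω : K) (k : ℤ) (a : K) :
    twistK ω (HahnSeries.single k a) = HahnSeries.single k (a * ω ^ k) := by
  ext n
  rw [coeff_twistK]
  by_cases h : n = k
  · subst h
    simp
  · rw [HahnSeries.coeff_single_of_ne h, HahnSeries.coeff_single_of_ne h, zero_mul]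

theorem twistK_one (ω : K) : twistK ω (1 : LaurentSeries K) = 1 := by
  have h : (1 : LaurentSeries K) = HahnSeries.single 0 1 := rfl
  rw [h, twistK_single]
  simp

theorem twistK_C (ω : K) (a : K) :
    twistK ω (HahnSeries.C a : LaurentSeries K) = HahnSeries.C a := by
  have h : (HahnSeries.C a : LaurentSeries K) = HahnSeries.single 0 a := rfl
  rw [h, twistK_single]
  simp

theorem twistK_mul {ω : K} (hω : ω ≠ 0) (x y : LaurentSeries K) :
    twistK ω (x * y) = twistK ω x * twistK ω y := by
  ext n
  rw [coeff_twistK, HahnSeries.coeff_mul,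
    HahnSeries.coeff_mul_left' (x := twistK ω x) (y := twistK ω y) x.isPWO_support
      (support_twistK hω x).le,
    Finset.sum_mul]
  have hy : (twistK ω y).support = y.support := support_twistK hω y
  have hset : Finset.antidiagonal x.isPWO_support (twistK ω y).isPWO_support n =
      Finset.antidiagonal x.isPWO_support y.isPWO_support n := by
    ext ij
    simp only [Finset.mem_antidiagonal, hy]
  rw [hset]
  refine Finset.sum_congr rfl fun ij hij => ?_
  have hsum : ij.1 + ij.2 = n := (Finset.mem_antidiagonal.mp hij).2.2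
  rw [coeff_twistK, coeff_twistK, ← hsum, zpow_add₀ hω]
  ring

/-- `twistK ω` as a ring homomorphism. -/
def twistHom (ω : K) (hω : ω ≠ 0) : LaurentSeries K →+* LaurentSeries K where
  toFun := twistK ω
  map_one' := twistK_one ω
  map_mul' := twistK_mul hω
  map_zero' := twistK_zero ω
  map_add' := twistK_add ω

@[simp] theorem twistHom_apply (ω : K) (hω : ω ≠ 0) (s : LaurentSeries K) :
    twistHom ω hω s = twistK ω s := rfl

theorem twistK_one_left (s : LaurentSeries K) : twistK (1 : K) s = s := by
  ext n
  simp

theorem twistK_twistK (ω ω' : K) (s : LaurentSeries K) :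
    twistK ω (twistK ω' s) = twistK (ω' * ω) s := by
  ext n
  simp [mul_zpow, mul_assoc]

theorem twistK_injective {ω : K} (hω : ω ≠ 0) : Function.Injective (twistK (K := K) ω) := by
  intro x y h
  ext n
  have := congrArg (fun s => s.coeff n) h
  simp only [coeff_twistK] at this
  exact mul_right_cancel₀ (zpow_ne_zero _ hω) this

/-- compatibility with a coefficient map. -/
theorem coeffMap_twistK {L : Type*} [Field L] (θ : K →+* L) (ω : K) (s : LaurentSeries K) :
    coeffMap θ (twistK ω s) = twistK (θ ω) (coeffMap θ s) := by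
  ext n
  simp [coeffMap_coeff, map_zpow₀]

/-- twisting by an `e`-th root of unity does not change a series in `t ^ e`. -/
theorem twistK_qExpand (e : ℕ) [NeZero e] {ω : K} (hω : ω ^ e = 1) (s : LaurentSeries K) :
    twistK ω (qExpand K e s) = qExpand K e s := by
  ext n
  rw [coeff_twistK]
  by_cases hn : (e : ℤ) ∣ n
  · obtain ⟨k, rfl⟩ := hn
    rw [zpow_mul, zpow_natCast, hω, one_zpow, mul_one]
  · rw [qExpand_coeff_of_not_dvd e _ hn, zero_mul]

theorem order_twistK {ω : K} (hω : ω ≠ 0) (s : LaurentSeries K) :
    (twistK ω s).order = s.order := by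
  by_cases hs : s = 0
  · rw [hs, twistK_zero]
  · have hne : twistK ω s ≠ 0 := fun h => hs (twistK_injective hω (by rw [h, twistK_zero]))
    rw [HahnSeries.order_of_ne hne, HahnSeries.order_of_ne hs]
    congr 1
    exact support_twistK hω s

end Fermat.Agent.Red.Kron
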