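import Fermat.Agent.Red.Kron.Charpoly
import Fermat.Agent.Red.TransferRed

/-!
# P-RED / KRON: the characteristic polynomials of `T_ℓ` in the `charpolyAlong` vocabulary
-/

set_option autoImplicit false
set_option linter.style.haveILetI false

open ModularCurve AlgebraicCurve Polynomial

noncomputable section

namespace Fermat.Agent.Red.Kron

open Fermat.Agent.S24 Fermat.Agent.Red.TRK

/-- characteristic polynomial of `α(u)` over `β(F_N)`: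
`Ψ_u(X)(t^ℓ) = (X - u(t^{ℓ²})) · ∏_{b < ℓ} (X - u(ζ^b t))`. -/
theorem charpolyAlong_beta_alpha (N ℓ : ℕ) [NeZero N] [NeZero ℓ] (hℓ : ℓ.Prime) (hN : ¬ ℓ ∣ N)
    (ζ : Kbar) (hζ : IsPrimitiveRoot ζ ℓ)
    (hfin : FiniteAlong Kbar (heckeBetaBar Kbar N ℓ)) (u : FF N) :
    (charpolyAlong (heckeBetaBar Kbar N ℓ) hfin (heckeAlphaBar Kbar N ℓ u)).map (kIotaK N ℓ) =
      (X - C (qExpand Kbar (ℓ * ℓ) (u : LaurentSeries Kbar))) *
        ∏ b ∈ Finset.range ℓ, (X - C (twistK (ζ ^ b) (u : LaurentSeries Kbar))) :=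
  charpoly_beta_alpha_eq N ℓ hℓ hN ζ hζ u

/-- characteristic polynomial of `β(u)` over `α(F_N)`:
`Φ_u(X)(t^ℓ) = (X - u(t^{ℓ²})) · ∏_{b < ℓ} (X - u(ζ^b t))`. -/
theorem charpolyAlong_alpha_beta (N ℓ : ℕ) [NeZero N] [NeZero ℓ] (hℓ : ℓ.Prime) (hN : ¬ ℓ ∣ N)
    (ζ : Kbar) (hζ : IsPrimitiveRoot ζ ℓ)
    (hfin : FiniteAlong Kbar (heckeAlphaBar Kbar N ℓ)) (u : FF N) :
    (charpolyAlong (heckeAlphaBar Kbar N ℓ) hfin (heckeBetaBar Kbar N ℓ u)).map (kIotaK N ℓ) =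
      (X - C (qExpand Kbar (ℓ * ℓ) (u : LaurentSeries Kbar))) *
        ∏ b ∈ Finset.range ℓ, (X - C (twistK (ζ ^ b) (u : LaurentSeries Kbar))) :=
  charpoly_alpha_beta_eq N ℓ hℓ hN ζ hζ u

/-- the two characteristic polynomials agree. -/
theorem charpolyAlong_beta_alpha_eq_alpha_beta (N ℓ : ℕ) [NeZero N] [NeZero ℓ] (hℓ : ℓ.Prime)
    (hN : ¬ ℓ ∣ N) (hfinα : FiniteAlong Kbar (heckeAlphaBar Kbar N ℓ))
    (hfinβ : FiniteAlong Kbar (heckeBetaBar Kbar N ℓ)) (u : FF N) :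
    charpolyAlong (heckeBetaBar Kbar N ℓ) hfinβ (heckeAlphaBar Kbar N ℓ u) =
      charpolyAlong (heckeAlphaBar Kbar N ℓ) hfinα (heckeBetaBar Kbar N ℓ u) := by
  haveI : NeZero ((ℓ : ℕ) : Kbar) := ⟨by exact_mod_cast NeZero.ne ℓ⟩
  obtain ⟨ζ, hζ⟩ := HasEnoughRootsOfUnity.exists_primitiveRoot Kbar ℓ
  apply Polynomial.map_injective (kIotaK N ℓ) (kIotaK N ℓ).injective
  rw [charpolyAlong_beta_alpha N ℓ hℓ hN ζ hζ hfinβ u,
    charpolyAlong_alpha_beta N ℓ hℓ hN ζ hζ hfinα u]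

end Fermat.Agent.Red.Kron
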