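import Fermat.Agent.S24.ModFinal
import Fermat.Agent.S24.FICore
import Fermat.Agent.S24.FIWrap
import Fermat.Agent.S24.OrbitPlaces
import Fermat.Agent.S24.DegLe
import Fermat.Agent.S24.EmbPoint
import Fermat.Agent.S24.OrbitCount
import Fermat.Agent.S21.C1.PrimCount
import Fermat.Agent.Red.HKMod

/-!
# P-RED / KRON: `[F_{Nℓ} : α(F_N)] = ℓ + 1`

* `kIfaceFin M : IfaceFin M` — `[F_M : ℚ̄(j)] = ψ(M)`, unconditionally (from the S24 library);
* `finrank_adjoin_mul_finrank_along` — the tower law along a homomorphism of fields;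
* `finrank_heckeAlphaBar` — `[F_{Nℓ} : α(F_N)] = ℓ + 1` for a prime `ℓ ∤ N`.
-/

set_option autoImplicit false
set_option linter.style.haveILetI false

open AlgebraicCurve ModularCurve IntermediateField

noncomputable section

namespace Fermat.Agent.Red.Kron

open Fermat.Agent.S24

/-- `[F_M : ℚ̄(j)] = ψ(M)`. -/
theorem kIfaceFin (M : ℕ) [NeZero M] : IfaceFin M := by
  have hZ : ZerosStatement Kbar (FF M) :=
    fun y hy hfin => @FICore.fi_zeros Kbar (FF M) _ _ _ _ _ y hy hfin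
  have hFIgen := fi_general_of_zeros hZ
  have htr := transcendental_jBar M
  have hle := finrank_le_index M
  have hFI : FIStatement Kbar (FF M) (jBar M) := hFIgen (jBar M) htr hle.1
  have hM1c : M1cStatement M := fun t n hfi hdeg inst g h hh E hn =>
    @card_zeroPlaces_eq_card_orbits Kbar (FF M) _ _ _ t n hfi hdeg _ _ _ inst _ g h hh E hn
  exact ifaceFin_of M htr hle hFI hM1c (exists_embFamily_generic M)

section Tower

variable {K F F' : Type*} [Field K] [Field F] [Field F'] [Algebra K F] [Algebra K F']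

/-- the tower law along `φ : F → F'`: `[F : K(x)] · [F' : φ(F)] = [F' : K(φ x)]`. -/
theorem finrank_adjoin_mul_finrank_along (φ : F →ₐ[K] F') (x : F) (x' : F') (hx : φ x = x') :
    letI := algebraAlong φ
    Module.finrank K⟮x⟯ F * Module.finrank F F' = Module.finrank K⟮x'⟯ F' := by
  subst hx
  letI := algebraAlong φ
  letI alg : Algebra K⟮x⟯ F' := ((algebraMap F F').comp (algebraMap K⟮x⟯ F)).toAlgebra
  haveI : IsScalarTower K⟮x⟯ F F' := IsScalarTower.of_algebraMap_eq (fun _ => rfl)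
  rw [Module.finrank_mul_finrank]
  have hmap : (K⟮x⟯).map φ = K⟮φ x⟯ := by
    rw [IntermediateField.adjoin_map, Set.image_singleton]
  let i : K⟮x⟯ ≃+* K⟮φ x⟯ :=
    ((IntermediateField.equivMap K⟮x⟯ φ).trans (IntermediateField.equivOfEq hmap)).toRingEquiv
  exact Algebra.finrank_eq_of_equiv_equiv i (RingEquiv.refl F') (by ext; rfl)

end Tower

/-- `[F_{Nℓ} : α(F_N)] = ℓ + 1` for a prime `ℓ ∤ N`. -/
theorem finrank_heckeAlphaBar (N ℓ : ℕ) [NeZero N] [NeZero ℓ] (hℓ : ℓ.Prime) (hN : ¬ ℓ ∣ N) :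
    letI := algebraAlong (heckeAlphaBar Kbar N ℓ)
    Module.finrank (FF N) (FF (N * ℓ)) = ℓ + 1 := by
  have h1 := finrank_adjoin_mul_finrank_along (heckeAlphaBar Kbar N ℓ) (jBar N) (jBar (N * ℓ))
    (Fermat.Agent.Red.HKMod.heckeAlphaBar_jBar N ℓ)
  rw [(kIfaceFin N).2.2, (kIfaceFin (N * ℓ)).2.2] at h1
  have hcop : N.Coprime ℓ := ((Nat.Prime.coprime_iff_not_dvd hℓ).mpr hN).symm
  have h2 : dedekindPsi (N * ℓ) = dedekindPsi N * (ℓ + 1) := by
    rw [Fermat.Agent.S21.C1.dedekindPsi_mul hcop]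
    have h3 := Fermat.Agent.S21.C1.dedekindPsi_prime_pow hℓ (k := 1) one_pos
    simp only [pow_one, Nat.sub_self, pow_zero] at h3
    rw [h3]
  rw [h2] at h1
  exact Nat.eq_of_mul_eq_mul_left (Nat.pos_of_ne_zero (dedekindPsi_ne_zero' N)) h1

end Fermat.Agent.Red.Kron
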