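import Fermat.Agent.Red.Kron.Emb
import Fermat.Agent.Red.Kron.Finrank

/-!
# P-RED / KRON: the Fricke (Atkin–Lehner) involution of `F_{Nℓ}` and the degree along `β`

For `ℓ` prime to `N` there is a `ℚ̄`-automorphism `w` of `F_{Nℓ}` with `w ∘ α = β` and
`w ∘ β = α` (on `q`-expansions: the expansion at the "other" cusp, in the variable
`t = q^{1/ℓ}`).  Consequently `[F_{Nℓ} : β(F_N)] = [F_{Nℓ} : α(F_N)] = ℓ + 1`.

* `kFF_induction`, `kFF_induction_ab` : induction principles for `F_M`, resp. `F_{Nℓ}`;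
* `kFricke`, `kFricke_alpha`, `kFricke_beta`, `kFricke_cst`, `kFricke_kFricke`;
* `kFrickeEquiv : F_{Nℓ} ≃ₐ[ℚ̄] F_{Nℓ}`;
* `finrank_heckeBetaBar`.
-/

set_option autoImplicit false
set_option linter.style.haveILetI false
set_option linter.unusedSectionVars false

open ModularCurve AlgebraicCurve CongruenceSubgroup IntermediateField UpperHalfPlane
open scoped MatrixGroups Manifold

noncomputable section

namespace Fermat.Agent.Red.Kron

open Fermat.Agent.S24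

/-! ## induction principles -/

/-- induction principle for the function field `F_M`. -/
theorem kFF_induction (M : ℕ) [NeZero M] {P : FF M → Prop}
    (hc : ∀ a : Kbar, P (cst M a))
    (hj : ∀ (d : ℕ) [NeZero d] (hd : d ∣ M), P (jdBar M d hd))
    (hadd : ∀ x y, P x → P y → P (x + y))
    (hinv : ∀ x, P x → P x⁻¹)
    (hmul : ∀ x y, P x → P y → P (x * y)) (f : FF M) : P f := by
  obtain ⟨b, hb⟩ := f
  have hb' : b ∈ IntermediateField.adjoin Kbar (⇑(coeffEmb Kbar) '' divisorExpansions M) := by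
    rw [← h19_adjoin_coeffEmb_eq]; exact hb
  have key : ∀ (b : LaurentSeries Kbar)
      (_ : b ∈ IntermediateField.adjoin Kbar (⇑(coeffEmb Kbar) '' divisorExpansions M))
      (hb : b ∈ modularFunctionFieldBar M), P ⟨b, hb⟩ := by
    intro b hb'
    induction hb' using IntermediateField.adjoin_induction with
    | mem x hx =>
      intro hb
      obtain ⟨z, ⟨d, hd0, hd, rfl⟩, rfl⟩ := hx
      exact hj d hd
    | algebraMap a =>
      intro hb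
      exact hc a
    | add x y hx hy ihx ihy =>
      intro hb
      have hx' : x ∈ modularFunctionFieldBar M := by rw [h19_adjoin_coeffEmb_eq]; exact hx
      have hy' : y ∈ modularFunctionFieldBar M := by rw [h19_adjoin_coeffEmb_eq]; exact hy
      exact hadd ⟨x, hx'⟩ ⟨y, hy'⟩ (ihx hx') (ihy hy')
    | inv x hx ihx =>
      intro hb
      have hx' : x ∈ modularFunctionFieldBar M := by rw [h19_adjoin_coeffEmb_eq]; exact hx
      exact hinv ⟨x, hx'⟩ (ihx hx')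
    | mul x y hx hy ihx ihy =>
      intro hb
      have hx' : x ∈ modularFunctionFieldBar M := by rw [h19_adjoin_coeffEmb_eq]; exact hx
      have hy' : y ∈ modularFunctionFieldBar M := by rw [h19_adjoin_coeffEmb_eq]; exact hy
      exact hmul ⟨x, hx'⟩ ⟨y, hy'⟩ (ihx hx') (ihy hy')
  exact key b hb' hb

section AB

variable (N ℓ : ℕ) [NeZero N] [NeZero ℓ]

theorem jdBar_eq_alpha (d : ℕ) [NeZero d] (hd : d ∣ N) :
    jdBar (N * ℓ) d (hd.trans (dvd_mul_right N ℓ)) = heckeAlphaBar Kbar N ℓ (jdBar N d hd) :=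
  Subtype.ext (by rw [coe_heckeAlphaBar]; rfl)

theorem jdBar_eq_beta (d : ℕ) [NeZero d] (hd : d ∣ N) :
    jdBar (N * ℓ) (ℓ * d) (by rw [mul_comm N ℓ]; exact mul_dvd_mul_left ℓ hd) =
      heckeBetaBar Kbar N ℓ (jdBar N d hd) := by
  apply Subtype.ext
  rw [coe_heckeBetaBar, coe_jdBar, coe_jdBar, coeffEmb, ← ModularCurve.coeffMap_qExpand,
    qExpand_qExpand]

/-- induction principle for `F_{Nℓ}`, `ℓ` prime: it is generated by `α(F_N)` and `β(F_N)`. -/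
theorem kFF_induction_ab (hℓ : ℓ.Prime) {P : FF (N * ℓ) → Prop}
    (hc : ∀ a : Kbar, P (cst (N * ℓ) a))
    (ha : ∀ x : FF N, P (heckeAlphaBar Kbar N ℓ x))
    (hb : ∀ x : FF N, P (heckeBetaBar Kbar N ℓ x))
    (hadd : ∀ x y, P x → P y → P (x + y))
    (hinv : ∀ x, P x → P x⁻¹)
    (hmul : ∀ x y, P x → P y → P (x * y)) (f : FF (N * ℓ)) : P f := by
  refine kFF_induction (N * ℓ) hc ?_ hadd hinv hmul f
  intro d hd0 hd
  by_cases hℓd : ℓ ∣ d
  · obtain ⟨d', rfl⟩ := hℓd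
    have hd' : d' ∣ N := by
      rw [mul_comm N ℓ] at hd
      exact Nat.dvd_of_mul_dvd_mul_left hℓ.pos hd
    haveI : NeZero d' := ⟨fun h0 => NeZero.ne (ℓ * d') (by rw [h0, mul_zero])⟩
    have := hb (jdBar N d' hd')
    rw [← jdBar_eq_beta] at this
    exact this
  · have hcop : Nat.Coprime d ℓ := ((Nat.Prime.coprime_iff_not_dvd hℓ).mpr hℓd).symm
    have hd' : d ∣ N := hcop.dvd_of_dvd_mul_right hd
    have := ha (jdBar N d hd')
    rw [← jdBar_eq_alpha] at this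
    exact this

end AB

/-! ## the Fricke involution -/

section Fricke

variable (N ℓ : ℕ) [NeZero N] [NeZero ℓ]

/-- the standard embedding `F_{Nℓ} → ℂ((𝕋))`, `𝕋 = exp (2πiτ/(Nℓ))`, in the variable
`t = 𝕋^N = q^{1/ℓ}`. -/
def kIotaT : FF (N * ℓ) →+* LaurentSeries ℂ :=
  (qExpand ℂ N).comp ((coeffMap embC).comp (algebraMap (FF (N * ℓ)) (LaurentSeries Kbar)))

theorem kIotaT_apply (f : FF (N * ℓ)) :
    kIotaT N ℓ f = qExpand ℂ N (coeffMap embC (f : LaurentSeries Kbar)) := rfl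

theorem kIotaT_injective : Function.Injective (kIotaT N ℓ) := (kIotaT N ℓ).injective

theorem kIotaT_cst (a : Kbar) : kIotaT N ℓ (cst (N * ℓ) a) = HahnSeries.C (embC a) := by
  rw [kIotaT_apply]
  have : ((cst (N * ℓ) a : FF (N * ℓ)) : LaurentSeries Kbar) = HahnSeries.C a := by
    change algebraMap Kbar (LaurentSeries Kbar) a = HahnSeries.C a
    rw [algebraMap_laurentSeries_eq_single]
    rfl
  rw [this]
  have h2 : coeffMap embC (HahnSeries.C a : LaurentSeries Kbar) = HahnSeries.C (embC a) := by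
    have : (HahnSeries.C a : LaurentSeries Kbar) = HahnSeries.single 0 a := rfl
    rw [this, coeffMap_single]
    rfl
  rw [h2, qExpand_C]

theorem kIotaT_alpha (x : FF N) :
    kIotaT N ℓ (heckeAlphaBar Kbar N ℓ x) =
      qExpand ℂ N (coeffMap embC (x : LaurentSeries Kbar)) := by
  rw [kIotaT_apply, coe_heckeAlphaBar]

theorem kIotaT_beta (x : FF N) :
    kIotaT N ℓ (heckeBetaBar Kbar N ℓ x) =
      qExpand ℂ (N * ℓ) (coeffMap embC (x : LaurentSeries Kbar)) := by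
  rw [kIotaT_apply, coe_heckeBetaBar, ModularCurve.coeffMap_qExpand, qExpand_qExpand]

variable (m y : ℤ) (h : (ℓ : ℤ) * m - (N : ℤ) * y = 1)

theorem kEmb_cst (b : ℤ) (a : Kbar) :
    kEmb N ℓ m y h b (cst (N * ℓ) a) = HahnSeries.C (embC a) :=
  h19_cuspEmb_cst (N * ℓ) _ a

theorem kOmega_zero : kOmega ℓ 0 = 1 := by
  simp [kOmega]

theorem kEmb_zero_beta (x : FF N) :
    kEmb N ℓ m y h 0 (heckeBetaBar Kbar N ℓ x) =
      qExpand ℂ N (coeffMap embC (x : LaurentSeries Kbar)) := by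
  rw [kEmb_beta, kOmega_zero, twistK_one_left]

/-- the image of the embedding at the other cusp is contained in the image of the standard
embedding. -/
theorem kEmb_zero_mem_range (hℓ : ℓ.Prime) (f : FF (N * ℓ)) :
    ∃ g : FF (N * ℓ), kIotaT N ℓ g = kEmb N ℓ m y h 0 f := by
  induction f using kFF_induction_ab N ℓ hℓ with
  | hc a => exact ⟨cst (N * ℓ) a, by rw [kIotaT_cst, kEmb_cst]⟩
  | ha x => exact ⟨heckeBetaBar Kbar N ℓ x, by rw [kIotaT_beta, kEmb_alpha]⟩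
  | hb x => exact ⟨heckeAlphaBar Kbar N ℓ x, by rw [kIotaT_alpha, kEmb_zero_beta]⟩
  | hadd x y hx hy =>
    obtain ⟨g₁, h₁⟩ := hx
    obtain ⟨g₂, h₂⟩ := hy
    exact ⟨g₁ + g₂, by rw [map_add, map_add, h₁, h₂]⟩
  | hinv x hx =>
    obtain ⟨g₁, h₁⟩ := hx
    exact ⟨g₁⁻¹, by rw [map_inv₀, map_inv₀, h₁]⟩
  | hmul x y hx hy =>
    obtain ⟨g₁, h₁⟩ := hx
    obtain ⟨g₂, h₂⟩ := hy
    exact ⟨g₁ * g₂, by rw [map_mul, map_mul, h₁, h₂]⟩

/-- `F_{Nℓ}` is isomorphic to its image under the standard embedding. -/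
def kIotaTEquiv : FF (N * ℓ) ≃+* (kIotaT N ℓ).range :=
  RingEquiv.ofBijective (kIotaT N ℓ).rangeRestrict
    ⟨fun _ _ hab => kIotaT_injective N ℓ (congrArg Subtype.val hab),
      (kIotaT N ℓ).rangeRestrict_surjective⟩

theorem coe_kIotaTEquiv (f : FF (N * ℓ)) :
    ((kIotaTEquiv N ℓ f : (kIotaT N ℓ).range) : LaurentSeries ℂ) = kIotaT N ℓ f := rfl

/-- the embedding at the other cusp, with values in the image of the standard embedding. -/
def kEmbZeroRes (hℓ : ℓ.Prime) : FF (N * ℓ) →+* (kIotaT N ℓ).range :=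
  (kEmb N ℓ m y h 0).codRestrict (kIotaT N ℓ).range
    (fun f => by
      obtain ⟨g, hg⟩ := kEmb_zero_mem_range N ℓ m y h hℓ f
      exact ⟨g, hg⟩)

theorem coe_kEmbZeroRes (hℓ : ℓ.Prime) (f : FF (N * ℓ)) :
    ((kEmbZeroRes N ℓ m y h hℓ f : (kIotaT N ℓ).range) : LaurentSeries ℂ) =
      kEmb N ℓ m y h 0 f := rfl

/-- the Fricke involution as a ring endomorphism of `F_{Nℓ}`. -/
def kFrickeHom (hℓ : ℓ.Prime) : FF (N * ℓ) →+* FF (N * ℓ) :=
  ((kIotaTEquiv N ℓ).symm : (kIotaT N ℓ).range →+* FF (N * ℓ)).comp (kEmbZeroRes N ℓ m y h hℓ)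

theorem kIotaT_kFrickeHom (hℓ : ℓ.Prime) (f : FF (N * ℓ)) :
    kIotaT N ℓ (kFrickeHom N ℓ m y h hℓ f) = kEmb N ℓ m y h 0 f := by
  have h1 : kIotaTEquiv N ℓ (kFrickeHom N ℓ m y h hℓ f) = kEmbZeroRes N ℓ m y h hℓ f :=
    (kIotaTEquiv N ℓ).apply_symm_apply _
  rw [← coe_kIotaTEquiv, h1, coe_kEmbZeroRes]

theorem kFrickeHom_alpha (hℓ : ℓ.Prime) (x : FF N) :
    kFrickeHom N ℓ m y h hℓ (heckeAlphaBar Kbar N ℓ x) = heckeBetaBar Kbar N ℓ x := by
  apply kIotaT_injective N ℓ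
  rw [kIotaT_kFrickeHom, kEmb_alpha, kIotaT_beta]

theorem kFrickeHom_beta (hℓ : ℓ.Prime) (x : FF N) :
    kFrickeHom N ℓ m y h hℓ (heckeBetaBar Kbar N ℓ x) = heckeAlphaBar Kbar N ℓ x := by
  apply kIotaT_injective N ℓ
  rw [kIotaT_kFrickeHom, kEmb_zero_beta, kIotaT_alpha]

theorem kFrickeHom_cst (hℓ : ℓ.Prime) (a : Kbar) :
    kFrickeHom N ℓ m y h hℓ (cst (N * ℓ) a) = cst (N * ℓ) a := by
  apply kIotaT_injective N ℓ
  rw [kIotaT_kFrickeHom, kEmb_cst, kIotaT_cst]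

theorem kFrickeHom_kFrickeHom (hℓ : ℓ.Prime) (f : FF (N * ℓ)) :
    kFrickeHom N ℓ m y h hℓ (kFrickeHom N ℓ m y h hℓ f) = f := by
  induction f using kFF_induction_ab N ℓ hℓ with
  | hc a => rw [kFrickeHom_cst, kFrickeHom_cst]
  | ha x => rw [kFrickeHom_alpha, kFrickeHom_beta]
  | hb x => rw [kFrickeHom_beta, kFrickeHom_alpha]
  | hadd x y hx hy => rw [map_add, map_add, hx, hy]
  | hinv x hx => rw [map_inv₀, map_inv₀, hx]
  | hmul x y hx hy => rw [map_mul, map_mul, hx, hy]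

end Fricke

/-- **the Fricke involution** `w` of `F_{Nℓ}` (`ℓ` prime, `ℓ ∤ N`): a `ℚ̄`-automorphism with
`w ∘ α = β`, `w ∘ β = α`, `w ∘ w = id`. -/
theorem exists_fricke (N ℓ : ℕ) [NeZero N] [NeZero ℓ] (hℓ : ℓ.Prime) (hN : ¬ ℓ ∣ N) :
    ∃ w : FF (N * ℓ) ≃ₐ[Kbar] FF (N * ℓ),
      (∀ x : FF N, w (heckeAlphaBar Kbar N ℓ x) = heckeBetaBar Kbar N ℓ x) ∧
      (∀ x : FF N, w (heckeBetaBar Kbar N ℓ x) = heckeAlphaBar Kbar N ℓ x) ∧
      (∀ f : FF (N * ℓ), w (w f) = f) := by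
  have hcop : IsCoprime (ℓ : ℤ) (N : ℤ) := by
    rw [Int.isCoprime_iff_gcd_eq_one, Int.gcd_natCast_natCast]
    exact (Nat.Prime.coprime_iff_not_dvd hℓ).mpr hN
  obtain ⟨a, c, hac⟩ := hcop
  have hb : (ℓ : ℤ) * a - (N : ℤ) * (-c) = 1 := by linear_combination hac
  let w₀ : FF (N * ℓ) →ₐ[Kbar] FF (N * ℓ) :=
    { kFrickeHom N ℓ a (-c) hb hℓ with
      commutes' := fun r => kFrickeHom_cst N ℓ a (-c) hb hℓ r }
  have hw₀ : ∀ f, w₀ (w₀ f) = f := kFrickeHom_kFrickeHom N ℓ a (-c) hb hℓ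
  refine ⟨AlgEquiv.ofAlgHom w₀ w₀ (AlgHom.ext hw₀) (AlgHom.ext hw₀), ?_, ?_, ?_⟩
  · exact kFrickeHom_alpha N ℓ a (-c) hb hℓ
  · exact kFrickeHom_beta N ℓ a (-c) hb hℓ
  · exact hw₀

/-- the Fricke involution (a choice). -/
def kFricke (N ℓ : ℕ) [NeZero N] [NeZero ℓ] (hℓ : ℓ.Prime) (hN : ¬ ℓ ∣ N) :
    FF (N * ℓ) ≃ₐ[Kbar] FF (N * ℓ) :=
  (exists_fricke N ℓ hℓ hN).choose

theorem kFricke_alpha (N ℓ : ℕ) [NeZero N] [NeZero ℓ] (hℓ : ℓ.Prime) (hN : ¬ ℓ ∣ N)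
    (x : FF N) : kFricke N ℓ hℓ hN (heckeAlphaBar Kbar N ℓ x) = heckeBetaBar Kbar N ℓ x :=
  (exists_fricke N ℓ hℓ hN).choose_spec.1 x

theorem kFricke_beta (N ℓ : ℕ) [NeZero N] [NeZero ℓ] (hℓ : ℓ.Prime) (hN : ¬ ℓ ∣ N)
    (x : FF N) : kFricke N ℓ hℓ hN (heckeBetaBar Kbar N ℓ x) = heckeAlphaBar Kbar N ℓ x :=
  (exists_fricke N ℓ hℓ hN).choose_spec.2.1 x

theorem kFricke_kFricke (N ℓ : ℕ) [NeZero N] [NeZero ℓ] (hℓ : ℓ.Prime) (hN : ¬ ℓ ∣ N)
    (f : FF (N * ℓ)) : kFricke N ℓ hℓ hN (kFricke N ℓ hℓ hN f) = f :=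
  (exists_fricke N ℓ hℓ hN).choose_spec.2.2 f

/-- `[F_{Nℓ} : β(F_N)] = ℓ + 1` for a prime `ℓ ∤ N`. -/
theorem finrank_heckeBetaBar (N ℓ : ℕ) [NeZero N] [NeZero ℓ] (hℓ : ℓ.Prime) (hN : ¬ ℓ ∣ N) :
    letI := algebraAlong (heckeBetaBar Kbar N ℓ)
    Module.finrank (FF N) (FF (N * ℓ)) = ℓ + 1 := by
  rw [← finrank_heckeAlphaBar N ℓ hℓ hN]
  exact (@Algebra.finrank_eq_of_equiv_equiv (FF N) (FF (N * ℓ)) _ _
    (algebraAlong (heckeAlphaBar Kbar N ℓ)) (FF N) (FF (N * ℓ)) _ _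
    (algebraAlong (heckeBetaBar Kbar N ℓ)) (RingEquiv.refl (FF N))
    (kFricke N ℓ hℓ hN).toRingEquiv
    (RingHom.ext fun x => (kFricke_alpha N ℓ hℓ hN x).symm)).symm

end Fermat.Agent.Red.Kron
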