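import Mathlib.RingTheory.Norm.Transitivity
import Mathlib.FieldTheory.PrimitiveElement
import Mathlib.FieldTheory.IsAlgClosed.AlgebraicClosure
import Mathlib.RingTheory.RootsOfUnity.PrimitiveRoots

/-!
# P-RED / KRON: the norm as a product over an explicit full family of embeddings

* `norm_eq_prod_of_embeddings` : if `e i : L → M` (`i ∈ I`) are pairwise distinct ring
  homomorphisms into a field `M`, all restricting to the same `ι : K → M`, and
  `#I = [L : K]` (`L / K` finite separable), then `ι (N_{L/K} x) = ∏ i, e i x`.
* `prod_range_pow_primitiveRoot` : `∏_{b < n} f (ξ^b)` does not depend on the primitive `n`-th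
  root of unity `ξ`.
-/

set_option autoImplicit false
set_option linter.style.haveILetI false

noncomputable section

namespace Fermat.Agent.Red.Kron

theorem norm_eq_prod_of_embeddings {K L M : Type*} [Field K] [Field L] [Field M] [Algebra K L]
    [FiniteDimensional K L] [Algebra.IsSeparable K L] (ι : K →+* M) {I : Type*} [Fintype I]
    (e : I → (L →+* M)) (he : Function.Injective e)
    (hcomm : ∀ i x, e i (algebraMap K L x) = ι x)
    (hcard : Fintype.card I = Module.finrank K L) (x : L) :
    ι (Algebra.norm K x) = ∏ i, e i x := by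
  classical
  let E := AlgebraicClosure M
  letI : Algebra K E := ((algebraMap M E).comp ι).toAlgebra
  let f : I → (L →ₐ[K] E) := fun i =>
    { ((algebraMap M E).comp (e i)) with
      commutes' := fun r => by
        show algebraMap M E (e i (algebraMap K L r)) = algebraMap M E (ι r)
        rw [hcomm] }
  have hf : Function.Injective f := by
    intro i j hij
    apply he
    ext y
    have h1 : f i y = f j y := by rw [hij]
    exact (algebraMap M E).injective h1
  have hcardE : Fintype.card (L →ₐ[K] E) = Module.finrank K L := AlgHom.card K L E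
  have hbij : Function.Bijective f := by
    rw [Fintype.bijective_iff_injective_and_card]
    exact ⟨hf, hcard.trans hcardE.symm⟩
  have h1 := Algebra.norm_eq_prod_embeddings K E x
  have h2 : ∏ σ : L →ₐ[K] E, σ x = ∏ i, f i x :=
    (Fintype.prod_bijective f hbij _ _ (fun _ => rfl)).symm
  rw [h2] at h1
  have h3 : ∏ i, f i x = algebraMap M E (∏ i, e i x) := by
    rw [map_prod]
    rfl
  rw [h3] at h1
  exact (algebraMap M E).injective h1

/-- `∏_{b < n} f (ξ^b)` is the product of `f` over all `n`-th roots of unity. -/
theorem prod_range_pow_eq_nthRoots {R A : Type*} [CommRing R] [IsDomain R] [CommMonoid A]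
    (f : R → A) {ξ : R} {n : ℕ} (h : IsPrimitiveRoot ξ n) :
    ∏ b ∈ Finset.range n, f (ξ ^ b) = ((Polynomial.nthRoots n (1 : R)).map f).prod := by
  rw [h.nthRoots_eq (one_pow n), Multiset.map_map, Finset.prod_eq_multiset_prod]
  congr 1
  refine Multiset.map_congr rfl (fun b _ => ?_)
  simp

/-- `∏_{b < n} f (ξ^b)` does not depend on the primitive `n`-th root of unity `ξ`. -/
theorem prod_range_pow_primitiveRoot {R A : Type*} [CommRing R] [IsDomain R] [CommMonoid A]
    (f : R → A) {ξ ξ' : R} {n : ℕ} (h : IsPrimitiveRoot ξ n) (h' : IsPrimitiveRoot ξ' n) :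
    ∏ b ∈ Finset.range n, f (ξ ^ b) = ∏ b ∈ Finset.range n, f (ξ' ^ b) := by
  rw [prod_range_pow_eq_nthRoots f h, prod_range_pow_eq_nthRoots f h']

end Fermat.Agent.Red.Kron
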