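import Fermat.Agent.Red.Kron.Emb
import Fermat.Agent.Red.Kron.Finrank
import Fermat.Agent.Red.Kron.NormAbs

/-!
# P-RED / KRON: the norm formula for the Hecke correspondence `T_ℓ`

For a prime `ℓ ∤ N`, `u ∈ F_N` and a primitive `ℓ`-th root of unity `ζ ∈ ℚ̄`, the norm of
`β(u) = u(q^ℓ)` along `α : F_N → F_{Nℓ}` is, in the variable `t = q^{1/ℓ}`,

  `Norm(β u)(t^ℓ) = u(t^{ℓ²}) · ∏_{b < ℓ} u(ζ^b t)`      (`norm_beta_eq`).
-/

set_option autoImplicit false
set_option linter.style.haveILetI false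

open ModularCurve AlgebraicCurve CongruenceSubgroup IntermediateField UpperHalfPlane
open scoped MatrixGroups Manifold

noncomputable section

namespace Fermat.Agent.Red.Kron

open Fermat.Agent.S24

section Family

variable (N ℓ : ℕ) [NeZero N] [NeZero ℓ] (m y : ℤ) (h : (ℓ : ℤ) * m - (N : ℤ) * y = 1)

/-- the family of the `ℓ + 1` embeddings `F_{Nℓ} → ℂ((𝕋))` over `α(F_N)`. -/
def kFam : Fin (ℓ + 1) → (FF (N * ℓ) →+* LaurentSeries ℂ) :=
  Fin.cases (kEmbInf N ℓ) (fun b => kEmb N ℓ m y h ((b : ℕ) : ℤ))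

@[simp] theorem kFam_zero : kFam N ℓ m y h 0 = kEmbInf N ℓ := rfl

@[simp] theorem kFam_succ (b : Fin ℓ) :
    kFam N ℓ m y h b.succ = kEmb N ℓ m y h ((b : ℕ) : ℤ) := rfl

theorem kFam_injective (hℓ : 1 < ℓ) : Function.Injective (kFam N ℓ m y h) := by
  intro i j hij
  induction i using Fin.cases with
  | zero =>
    induction j using Fin.cases with
    | zero => rfl
    | succ b =>
      rw [kFam_zero, kFam_succ] at hij
      exact absurd hij.symm (kEmb_ne_kEmbInf N ℓ m y h _ hℓ)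
  | succ a =>
    induction j using Fin.cases with
    | zero =>
      rw [kFam_zero, kFam_succ] at hij
      exact absurd hij (kEmb_ne_kEmbInf N ℓ m y h _ hℓ)
    | succ b =>
      rw [kFam_succ, kFam_succ] at hij
      have := kEmb_injOn N ℓ m y h a.2 b.2 hij
      rw [Fin.ext this]

/-- the common restriction to `F_N` of the embeddings. -/
def kIota : FF N →+* LaurentSeries ℂ :=
  (qExpand ℂ (N * ℓ)).comp ((coeffMap embC).comp (algebraMap (FF N) (LaurentSeries Kbar)))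

theorem kIota_apply (x : FF N) :
    kIota N ℓ x = qExpand ℂ (N * ℓ) (coeffMap embC (x : LaurentSeries Kbar)) := rfl

theorem kFam_alpha (i : Fin (ℓ + 1)) (x : FF N) :
    kFam N ℓ m y h i (heckeAlphaBar Kbar N ℓ x) = kIota N ℓ x := by
  induction i using Fin.cases with
  | zero => rw [kFam_zero, kEmbInf_apply, coe_heckeAlphaBar, kIota_apply]
  | succ b => rw [kFam_succ, kEmb_alpha, kIota_apply]

end Family

/-- **norm formula over `ℂ`**, in the variable `𝕋 = exp (2πiτ/(Nℓ))`. -/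
theorem norm_beta_C (N ℓ : ℕ) [NeZero N] [NeZero ℓ] (hℓ : ℓ.Prime) (hN : ¬ ℓ ∣ N) (u : FF N) :
    letI := algebraAlong (heckeAlphaBar Kbar N ℓ)
    qExpand ℂ (N * ℓ) (coeffMap embC
        ((Algebra.norm (FF N) (heckeBetaBar Kbar N ℓ u) : FF N) : LaurentSeries Kbar)) =
      qExpand ℂ (N * ℓ) (coeffMap embC (qExpand Kbar ℓ (u : LaurentSeries Kbar))) *
        ∏ b ∈ Finset.range ℓ,
          qExpand ℂ N (twistK (kOmega ℓ (b : ℤ)) (coeffMap embC (u : LaurentSeries Kbar))) := by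
  letI := algebraAlong (heckeAlphaBar Kbar N ℓ)
  -- Bezout
  have hcop : IsCoprime (ℓ : ℤ) (N : ℤ) := by
    rw [Int.isCoprime_iff_gcd_eq_one, Int.gcd_natCast_natCast]
    exact (Nat.Prime.coprime_iff_not_dvd hℓ).mpr hN
  obtain ⟨a, c, hac⟩ := hcop
  have hb : (ℓ : ℤ) * a - (N : ℤ) * (-c) = 1 := by linear_combination hac
  haveI : FiniteDimensional (FF N) (FF (N * ℓ)) :=
    Fermat.Agent.Red.HKMod.finiteAlong_heckeAlphaBar N ℓ
  haveI : Algebra.IsSeparable (FF N) (FF (N * ℓ)) := inferInstance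
  have key := norm_eq_prod_of_embeddings (K := FF N) (L := FF (N * ℓ)) (kIota N ℓ)
    (kFam N ℓ a (-c) hb) (kFam_injective N ℓ a (-c) hb hℓ.one_lt)
    (fun i x => kFam_alpha N ℓ a (-c) hb i x)
    (by rw [Fintype.card_fin]; exact (finrank_heckeAlphaBar N ℓ hℓ hN).symm)
    (heckeBetaBar Kbar N ℓ u)
  rw [kIota_apply] at key
  rw [key, Fin.prod_univ_succ, kFam_zero, kEmbInf_apply, coe_heckeBetaBar]
  congr 1
  simp only [kFam_succ, kEmb_beta]
  exact Fin.prod_univ_eq_prod_range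
    (fun b : ℕ => qExpand ℂ N (twistK (kOmega ℓ (b : ℤ))
      (coeffMap embC (u : LaurentSeries Kbar)))) ℓ

/-- **KRON, part (i): the norm formula.**  For a prime `ℓ ∤ N`, a primitive `ℓ`-th root of
unity `ζ` and `u ∈ F_N`:  `Norm_α(β u)(t^ℓ) = u(t^{ℓ²}) · ∏_{b < ℓ} u(ζ^b t)`. -/
theorem norm_beta_eq (N ℓ : ℕ) [NeZero N] [NeZero ℓ] (hℓ : ℓ.Prime) (hN : ¬ ℓ ∣ N)
    (ζ : Kbar) (hζ : IsPrimitiveRoot ζ ℓ) (u : FF N) :
    letI := algebraAlong (heckeAlphaBar Kbar N ℓ)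
    qExpand Kbar ℓ
        ((Algebra.norm (FF N) (heckeBetaBar Kbar N ℓ u) : FF N) : LaurentSeries Kbar) =
      qExpand Kbar (ℓ * ℓ) (u : LaurentSeries Kbar) *
        ∏ b ∈ Finset.range ℓ, twistK (ζ ^ b) (u : LaurentSeries Kbar) := by
  letI := algebraAlong (heckeAlphaBar Kbar N ℓ)
  apply h23_coeffMap_embC_injective
  apply qExpand_injective (R := ℂ) N
  have hC := norm_beta_C N ℓ hℓ hN u
  rw [ModularCurve.coeffMap_qExpand, qExpand_qExpand, hC, map_mul, map_mul, map_prod, map_prod,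
    ModularCurve.coeffMap_qExpand, ModularCurve.coeffMap_qExpand, qExpand_qExpand,
    qExpand_qExpand]
  congr 1
  · exact qExpand_congr (mul_assoc N ℓ ℓ) _
  · have hζC : IsPrimitiveRoot (embC ζ) ℓ := hζ.map_of_injective embC.injective
    have h1 := prod_range_pow_primitiveRoot
      (fun ω : ℂ => qExpand ℂ N (twistK ω (coeffMap embC (u : LaurentSeries Kbar))))
      (Complex.isPrimitiveRoot_exp ℓ (NeZero.ne ℓ)) hζC
    simp only [← kOmega_eq_pow] at h1
    rw [h1]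
    refine Finset.prod_congr rfl (fun b _ => ?_)
    rw [coeffMap_twistK, map_pow]

end Fermat.Agent.Red.Kron
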