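import Mathlib.RingTheory.LaurentSeries
import Mathlib.RingTheory.RootsOfUnity.PrimitiveRoots
import Fermat.Prelude.Thm_ModularCurve_coeffMap_qExpand
import Fermat.Agent.Red.Kron.Twist

/-!
# P-RED / KRON, leaf L3: descent of twist-invariant series from `t = q^(1/ℓ)` to `q`

* `twistK_prod_range`: the product `∏_{b < ℓ} y(ζ^b t)` is invariant under `t ↦ ζ t`;
* `unExpand ℓ s`: the series `Σ s_{ℓ m} q^m` (over any ring of coefficients);
* `qExpand_unExpand`: `s = (unExpand ℓ s)(t^ℓ)` if `s` only involves powers of `t^ℓ`;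
* `coeff_eq_zero_of_twistK_eq`: a series invariant under `t ↦ ζ t`, `ζ` a primitive `ℓ`-th
  root of unity, only involves powers of `t^ℓ`;
* `exists_qExpand_of_twistK_eq`, `exists_qExpand_of_twistK_eq_coeffMap`: the descent, also with
  coefficients in a subring `A` (compatible with every coefficient map `A → k`).
-/

set_option autoImplicit false

open HahnSeries ModularCurve

noncomputable section

namespace Fermat.Agent.Red.Kron

/-! ### `unExpand` -/

section unExpand

variable {R S : Type*} [CommRing R] [CommRing S]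

/-- the series `Σ s_{ℓ m} q^m`. -/
def unExpand (ℓ : ℕ) [NeZero ℓ] (s : LaurentSeries R) : LaurentSeries R :=
  HahnSeries.ofSuppBddBelow (fun m : ℤ => s.coeff ((ℓ : ℤ) * m)) (by
    rcases eq_or_ne s 0 with rfl | hs
    · exact ⟨0, fun m hm => absurd (by simp) hm⟩
    · refine ⟨min s.order 0, fun m hm => ?_⟩
      have hm' : s.coeff ((ℓ : ℤ) * m) ≠ 0 := hm
      have h1 : s.order ≤ (ℓ : ℤ) * m := HahnSeries.order_le_of_coeff_ne_zero hm'
      have hℓ : (1 : ℤ) ≤ ℓ := by
        exact_mod_cast Nat.pos_of_ne_zero (NeZero.ne ℓ)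
      rcases le_or_gt 0 m with h0 | h0
      · exact le_trans (min_le_right _ _) h0
      · have : (ℓ : ℤ) * m ≤ m := by nlinarith
        exact le_trans (min_le_left _ _) (le_trans h1 this))

@[simp] theorem coeff_unExpand (ℓ : ℕ) [NeZero ℓ] (s : LaurentSeries R) (m : ℤ) :
    (unExpand ℓ s).coeff m = s.coeff ((ℓ : ℤ) * m) := rfl

theorem unExpand_qExpand (ℓ : ℕ) [NeZero ℓ] (a : LaurentSeries R) :
    unExpand ℓ (qExpand R ℓ a) = a := by
  ext m
  rw [coeff_unExpand, qExpand_coeff_mul]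

theorem qExpand_unExpand (ℓ : ℕ) [NeZero ℓ] (s : LaurentSeries R)
    (hs : ∀ n : ℤ, ¬ (ℓ : ℤ) ∣ n → s.coeff n = 0) :
    qExpand R ℓ (unExpand ℓ s) = s := by
  ext n
  by_cases hn : (ℓ : ℤ) ∣ n
  · obtain ⟨m, rfl⟩ := hn
    rw [qExpand_coeff_mul, coeff_unExpand]
  · rw [qExpand_coeff_of_not_dvd ℓ _ hn, hs n hn]

theorem coeffMap_unExpand (f : R →+* S) (ℓ : ℕ) [NeZero ℓ] (s : LaurentSeries R) :
    coeffMap f (unExpand ℓ s) = unExpand ℓ (coeffMap f s) := by
  ext m
  rw [coeffMap_coeff, coeff_unExpand, coeff_unExpand, coeffMap_coeff]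

theorem unExpand_zero (ℓ : ℕ) [NeZero ℓ] : unExpand ℓ (0 : LaurentSeries R) = 0 := by
  ext m
  simp

end unExpand

/-! ### Twist-invariant series -/

section twist

variable {K : Type*} [Field K]

/-- (a) the product of the twists `y(ζ^b t)`, `b < ℓ`, is invariant under `t ↦ ζ t`. -/
theorem twistK_prod_range (ℓ : ℕ) {ζ : K} (hζ : ζ ^ ℓ = 1) (hζ0 : ζ ≠ 0)
    (y : LaurentSeries K) :
    twistK ζ (∏ b ∈ Finset.range ℓ, twistK (ζ ^ b) y) = ∏ b ∈ Finset.range ℓ, twistK (ζ ^ b) y := by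
  rcases eq_or_ne y 0 with rfl | hy
  · rcases Nat.eq_zero_or_pos ℓ with rfl | hℓ
    · simp [twistK_one]
    · have h0 : ∏ b ∈ Finset.range ℓ, twistK (ζ ^ b) (0 : LaurentSeries K) = 0 := by
        apply Finset.prod_eq_zero (Finset.mem_range.mpr hℓ)
        exact twistK_zero _
      rw [h0, twistK_zero]
  have h1 : twistK ζ (∏ b ∈ Finset.range ℓ, twistK (ζ ^ b) y)
      = ∏ b ∈ Finset.range ℓ, twistK (ζ ^ (b + 1)) y := by
    rw [← twistHom_apply ζ hζ0, map_prod]
    refine Finset.prod_congr rfl fun b _ => ?_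
    rw [twistHom_apply, twistK_twistK, pow_succ]
  rw [h1]
  have h2 := Finset.prod_range_succ' (fun b => twistK (ζ ^ b) y) ℓ
  have h3 := Finset.prod_range_succ (fun b => twistK (ζ ^ b) y) ℓ
  rw [h3, hζ, pow_zero] at h2
  have hne : twistK (1 : K) y ≠ 0 := by
    rw [twistK_one_left]; exact hy
  exact (mul_right_cancel₀ hne h2).symm

/-- a series invariant under `t ↦ ζ t`, `ζ` a primitive `ℓ`-th root of unity, only involves
powers of `t ^ ℓ`. -/
theorem coeff_eq_zero_of_twistK_eq {ℓ : ℕ} {ζ : K} (hζ : IsPrimitiveRoot ζ ℓ)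
    {s : LaurentSeries K} (hs : twistK ζ s = s) {n : ℤ} (hn : ¬ (ℓ : ℤ) ∣ n) :
    s.coeff n = 0 := by
  have h1 := congrArg (fun x : LaurentSeries K => x.coeff n) hs
  simp only [coeff_twistK] at h1
  by_contra h0
  have h2 : ζ ^ n = 1 := by
    have h3 : s.coeff n * ζ ^ n = s.coeff n * 1 := by rw [h1, mul_one]
    exact mul_left_cancel₀ h0 h3
  exact hn ((hζ.zpow_eq_one_iff_dvd n).mp h2)

/-- (b) the descent over a field. -/
theorem exists_qExpand_of_twistK_eq (ℓ : ℕ) [NeZero ℓ] {ζ : K} (hζ : IsPrimitiveRoot ζ ℓ)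
    (s : LaurentSeries K) (hs : twistK ζ s = s) :
    qExpand K ℓ (unExpand ℓ s) = s :=
  qExpand_unExpand ℓ s fun _ hn => coeff_eq_zero_of_twistK_eq hζ hs hn

/-- (b) the descent with coefficients in a ring `A` mapping injectively to `K`: if the image of
`s : A((t))` in `K((t))` is twist-invariant then `s = a(t^ℓ)` with `a := unExpand ℓ s` in
`A((q))`. -/
theorem qExpand_unExpand_of_twistK_eq {A : Type*} [CommRing A] (ι : A →+* K)
    (hι : Function.Injective ι) (ℓ : ℕ) [NeZero ℓ] {ζ : K} (hζ : IsPrimitiveRoot ζ ℓ)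
    (s : LaurentSeries A) (hs : twistK ζ (coeffMap ι s) = coeffMap ι s) :
    qExpand A ℓ (unExpand ℓ s) = s := by
  refine qExpand_unExpand ℓ s fun n hn => ?_
  have h := coeff_eq_zero_of_twistK_eq hζ hs hn
  rw [coeffMap_coeff] at h
  exact (map_eq_zero_iff ι hι).mp h

/-- (b) packaged: the descended series is compatible with every coefficient map. -/
theorem exists_qExpand_of_twistK_eq_coeffMap {A : Type*} [CommRing A] (ι : A →+* K)
    (hι : Function.Injective ι) (ℓ : ℕ) [NeZero ℓ] {ζ : K} (hζ : IsPrimitiveRoot ζ ℓ)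
    (s : LaurentSeries A) (hs : twistK ζ (coeffMap ι s) = coeffMap ι s) :
    ∃ a : LaurentSeries A, qExpand A ℓ a = s ∧
      qExpand K ℓ (coeffMap ι a) = coeffMap ι s ∧
      ∀ {k : Type*} [CommRing k] (π : A →+* k), qExpand k ℓ (coeffMap π a) = coeffMap π s := by
  have h := qExpand_unExpand_of_twistK_eq ι hι ℓ hζ s hs
  refine ⟨unExpand ℓ s, h, ?_, ?_⟩
  · rw [← coeffMap_qExpand, h]
  · intro k _ π
    rw [← coeffMap_qExpand, h]

end twist

end Fermat.Agent.Red.Kron
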