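import Fermat.Agent.Red.Kron.Charpoly

/-!
# P-RED / KRON: `Norm_β (α u) = Norm_α (β u)` (Fricke symmetry of the Hecke correspondence)
-/

set_option autoImplicit false
set_option linter.style.haveILetI false
set_option linter.unusedSectionVars false

open ModularCurve AlgebraicCurve CongruenceSubgroup IntermediateField UpperHalfPlane Polynomial
open scoped MatrixGroups Manifold

noncomputable section

namespace Fermat.Agent.Red.Kron

open Fermat.Agent.S24

variable (N ℓ : ℕ) [NeZero N] [NeZero ℓ]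

theorem kIota_injective : Function.Injective (kIota N ℓ) := (kIota N ℓ).injective

/-- the norm of `α(u)` along `β`, over `ℂ`. -/
theorem norm_alpha_along_beta_C (hℓ : ℓ.Prime) (hN : ¬ ℓ ∣ N) (m y : ℤ)
    (h : (ℓ : ℤ) * m - (N : ℤ) * y = 1) (u : FF N) :
    letI := algebraAlong (heckeBetaBar Kbar N ℓ)
    kIota N ℓ (Algebra.norm (FF N) (heckeAlphaBar Kbar N ℓ u)) =
      ∏ i, kFam N ℓ m y h i (heckeBetaBar Kbar N ℓ u) := by
  letI := algebraAlong (heckeBetaBar Kbar N ℓ)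
  haveI : FiniteDimensional (FF N) (FF (N * ℓ)) :=
    Fermat.Agent.Red.HKMod.finiteAlong_heckeBetaBar N ℓ
  haveI : Algebra.IsSeparable (FF N) (FF (N * ℓ)) := inferInstance
  let w := kFricke N ℓ hℓ hN
  let e : Fin (ℓ + 1) → (FF (N * ℓ) →+* LaurentSeries ℂ) :=
    fun i => (kFam N ℓ m y h i).comp (w : FF (N * ℓ) →+* FF (N * ℓ))
  have he : Function.Injective e := by
    intro i j hij
    apply kFam_injective N ℓ m y h hℓ.one_lt
    ext1 f
    have h1 : e i (w f) = e j (w f) := by rw [hij]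
    have h2 : w (w f) = f := kFricke_kFricke N ℓ hℓ hN f
    simpa [e, h2] using h1
  have hcomm : ∀ i x, e i (algebraMap (FF N) (FF (N * ℓ)) x) = kIota N ℓ x := by
    intro i x
    show kFam N ℓ m y h i (w (heckeBetaBar Kbar N ℓ x)) = kIota N ℓ x
    rw [show w (heckeBetaBar Kbar N ℓ x) = heckeAlphaBar Kbar N ℓ x from
      kFricke_beta N ℓ hℓ hN x]
    exact kFam_alpha N ℓ m y h i x
  rw [norm_eq_prod_of_embeddings (K := FF N) (L := FF (N * ℓ)) (kIota N ℓ) e he hcomm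
    (by rw [Fintype.card_fin]; exact (finrank_heckeBetaBar N ℓ hℓ hN).symm)
    (heckeAlphaBar Kbar N ℓ u)]
  refine Finset.prod_congr rfl (fun i _ => ?_)
  show kFam N ℓ m y h i (w (heckeAlphaBar Kbar N ℓ u)) = _
  rw [show w (heckeAlphaBar Kbar N ℓ u) = heckeBetaBar Kbar N ℓ u from
    kFricke_alpha N ℓ hℓ hN u]

/-- the norm of `β(u)` along `α`, over `ℂ`. -/
theorem norm_beta_along_alpha_C (hℓ : ℓ.Prime) (hN : ¬ ℓ ∣ N) (m y : ℤ)
    (h : (ℓ : ℤ) * m - (N : ℤ) * y = 1) (u : FF N) :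
    letI := algebraAlong (heckeAlphaBar Kbar N ℓ)
    kIota N ℓ (Algebra.norm (FF N) (heckeBetaBar Kbar N ℓ u)) =
      ∏ i, kFam N ℓ m y h i (heckeBetaBar Kbar N ℓ u) := by
  letI := algebraAlong (heckeAlphaBar Kbar N ℓ)
  haveI : FiniteDimensional (FF N) (FF (N * ℓ)) :=
    Fermat.Agent.Red.HKMod.finiteAlong_heckeAlphaBar N ℓ
  haveI : Algebra.IsSeparable (FF N) (FF (N * ℓ)) := inferInstance
  exact norm_eq_prod_of_embeddings (K := FF N) (L := FF (N * ℓ)) (kIota N ℓ)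
    (kFam N ℓ m y h) (kFam_injective N ℓ m y h hℓ.one_lt)
    (fun i x => kFam_alpha N ℓ m y h i x)
    (by rw [Fintype.card_fin]; exact (finrank_heckeAlphaBar N ℓ hℓ hN).symm)
    (heckeBetaBar Kbar N ℓ u)

/-- **Fricke symmetry of the norm**: `Norm_β (α u) = Norm_α (β u)`. -/
theorem norm_alpha_along_beta_eq (hℓ : ℓ.Prime) (hN : ¬ ℓ ∣ N) (u : FF N) :
    (letI := algebraAlong (heckeBetaBar Kbar N ℓ);
      Algebra.norm (FF N) (heckeAlphaBar Kbar N ℓ u)) =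
    (letI := algebraAlong (heckeAlphaBar Kbar N ℓ);
      Algebra.norm (FF N) (heckeBetaBar Kbar N ℓ u)) := by
  have hcop : IsCoprime (ℓ : ℤ) (N : ℤ) := by
    rw [Int.isCoprime_iff_gcd_eq_one, Int.gcd_natCast_natCast]
    exact (Nat.Prime.coprime_iff_not_dvd hℓ).mpr hN
  obtain ⟨a, c, hac⟩ := hcop
  have hb : (ℓ : ℤ) * a - (N : ℤ) * (-c) = 1 := by linear_combination hac
  apply kIota_injective N ℓ
  rw [norm_alpha_along_beta_C N ℓ hℓ hN a (-c) hb u, norm_beta_along_alpha_C N ℓ hℓ hN a (-c) hb u]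

/-- the norm formula along `β`:  `Norm_β(α u)(t^ℓ) = u(t^{ℓ²}) · ∏_{b < ℓ} u(ζ^b t)`. -/
theorem norm_alpha_eq (hℓ : ℓ.Prime) (hN : ¬ ℓ ∣ N) (ζ : Kbar) (hζ : IsPrimitiveRoot ζ ℓ)
    (u : FF N) :
    letI := algebraAlong (heckeBetaBar Kbar N ℓ)
    qExpand Kbar ℓ
        ((Algebra.norm (FF N) (heckeAlphaBar Kbar N ℓ u) : FF N) : LaurentSeries Kbar) =
      qExpand Kbar (ℓ * ℓ) (u : LaurentSeries Kbar) *
        ∏ b ∈ Finset.range ℓ, twistK (ζ ^ b) (u : LaurentSeries Kbar) := by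
  rw [norm_alpha_along_beta_eq N ℓ hℓ hN u]
  exact norm_beta_eq N ℓ hℓ hN ζ hζ u

end Fermat.Agent.Red.Kron
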