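import Fermat.Agent.Red.Kron.NormAbs
import Mathlib.LinearAlgebra.Charpoly.Basic
import Mathlib.Algebra.Polynomial.Roots

/-!
# P-RED / KRON: the characteristic polynomial as a product over a full family of embeddings

`charpoly_map_eq_prod_of_embeddings` : if `e i : L → M` (`i ∈ I`) are pairwise distinct ring
homomorphisms into a field `M`, all restricting to the same `ι : K → M`, and `#I = [L : K]`
(`L / K` finite separable, `K` infinite), then the characteristic polynomial of multiplication
by `x ∈ L` maps under `ι` to `∏ i, (X - e i x)`.
-/

set_option autoImplicit false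
set_option linter.style.haveILetI false

open Polynomial

noncomputable section

namespace Fermat.Agent.Red.Kron

theorem det_algebraMap_sub_mulLeft {K L : Type*} [Field K] [Field L] [Algebra K L]
    (c : K) (x : L) :
    LinearMap.det (algebraMap K (Module.End K L) c - LinearMap.mulLeft K x) =
      Algebra.norm K (algebraMap K L c - x) := by
  rw [Algebra.norm_apply]
  congr 1
  ext z
  simp [Algebra.smul_def, sub_mul]

theorem charpoly_map_eq_prod_of_embeddings {K L M : Type*} [Field K] [Field L] [Field M]
    [Algebra K L] [FiniteDimensional K L] [Algebra.IsSeparable K L] [Infinite K] (ι : K →+* M)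
    {I : Type*} [Fintype I] (e : I → (L →+* M)) (he : Function.Injective e)
    (hcomm : ∀ i x, e i (algebraMap K L x) = ι x)
    (hcard : Fintype.card I = Module.finrank K L) (x : L) :
    (LinearMap.mulLeft K x).charpoly.map ι = ∏ i, (X - C (e i x)) := by
  apply Polynomial.eq_of_infinite_eval_eq
  apply Set.Infinite.mono (s := Set.range ι) _ (Set.infinite_range_of_injective ι.injective)
  rintro _ ⟨c, rfl⟩
  show eval (ι c) ((LinearMap.mulLeft K x).charpoly.map ι) = eval (ι c) (∏ i, (X - C (e i x)))
  rw [Polynomial.eval_map, Polynomial.eval₂_at_apply, LinearMap.eval_charpoly,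
    det_algebraMap_sub_mulLeft, norm_eq_prod_of_embeddings ι e he hcomm hcard,
    Polynomial.eval_prod]
  refine Finset.prod_congr rfl (fun i _ => ?_)
  rw [map_sub, hcomm, eval_sub, eval_X, eval_C]

end Fermat.Agent.Red.Kron
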