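import Fermat.Agent.Red.Kron.Norm
import Fermat.Agent.Red.Kron.Fricke
import Fermat.Agent.Red.Kron.CharpolyAbs

/-!
# P-RED / KRON: the characteristic polynomial of the Hecke correspondence `T_ℓ`

For a prime `ℓ ∤ N`, `u ∈ F_N` and a primitive `ℓ`-th root of unity `ζ ∈ ℚ̄`, the
characteristic polynomial of `β(u)` over `α(F_N)` and the characteristic polynomial of `α(u)`
over `β(F_N)` are both equal, in the variable `t = q^{1/ℓ}`, to

  `(X - u(t^{ℓ²})) · ∏_{b < ℓ} (X - u(ζ^b t))`.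

(`charpoly_alpha_beta_eq`, `charpoly_beta_alpha_eq`; coefficients are mapped by
`kIotaK : x ↦ x(t^ℓ)`.)
-/

set_option autoImplicit false
set_option linter.style.haveILetI false
set_option linter.unusedSectionVars false

open ModularCurve AlgebraicCurve CongruenceSubgroup IntermediateField UpperHalfPlane Polynomial
open scoped MatrixGroups Manifold

noncomputable section

namespace Fermat.Agent.Red.Kron

open Fermat.Agent.S24

/-- `x ↦ x(t^ℓ)` : `F_N → ℚ̄((t))`. -/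
def kIotaK (N ℓ : ℕ) [NeZero ℓ] : FF N →+* LaurentSeries Kbar :=
  (qExpand Kbar ℓ).comp (algebraMap (FF N) (LaurentSeries Kbar))

theorem kIotaK_apply (N ℓ : ℕ) [NeZero ℓ] (x : FF N) :
    kIotaK N ℓ x = qExpand Kbar ℓ (x : LaurentSeries Kbar) := rfl

/-- the comparison map `ℚ̄((t)) → ℂ((𝕋))`, `t = 𝕋^N`. -/
def kTheta (N : ℕ) [NeZero N] : LaurentSeries Kbar →+* LaurentSeries ℂ :=
  (qExpand ℂ N).comp (coeffMap embC)

theorem kTheta_apply (N : ℕ) [NeZero N] (s : LaurentSeries Kbar) :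
    kTheta N s = qExpand ℂ N (coeffMap embC s) := rfl

theorem kTheta_injective (N : ℕ) [NeZero N] : Function.Injective (kTheta N) :=
  (qExpand_injective (R := ℂ) N).comp h23_coeffMap_embC_injective

theorem kTheta_comp_kIotaK (N ℓ : ℕ) [NeZero N] [NeZero ℓ] :
    (kTheta N).comp (kIotaK N ℓ) = kIota N ℓ := by
  ext1 x
  show qExpand ℂ N (coeffMap embC (qExpand Kbar ℓ (x : LaurentSeries Kbar))) =
    qExpand ℂ (N * ℓ) (coeffMap embC (x : LaurentSeries Kbar))
  rw [ModularCurve.coeffMap_qExpand, qExpand_qExpand]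

/-- the right hand side, over `ℂ`. -/
def kRhsC (N ℓ : ℕ) [NeZero N] [NeZero ℓ] (u : FF N) : Polynomial (LaurentSeries ℂ) :=
  (X - C (qExpand ℂ (N * ℓ) (coeffMap embC (qExpand Kbar ℓ (u : LaurentSeries Kbar))))) *
    ∏ b ∈ Finset.range ℓ,
      (X - C (qExpand ℂ N (twistK (kOmega ℓ (b : ℤ)) (coeffMap embC (u : LaurentSeries Kbar)))))

/-- the right hand side, over `ℚ̄`. -/
def kRhsK (N ℓ : ℕ) [NeZero ℓ] (ζ : Kbar) (u : FF N) : Polynomial (LaurentSeries Kbar) :=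
  (X - C (qExpand Kbar (ℓ * ℓ) (u : LaurentSeries Kbar))) *
    ∏ b ∈ Finset.range ℓ, (X - C (twistK (ζ ^ b) (u : LaurentSeries Kbar)))

theorem map_kTheta_kRhsK (N ℓ : ℕ) [NeZero N] [NeZero ℓ] (ζ : Kbar)
    (hζ : IsPrimitiveRoot ζ ℓ) (u : FF N) :
    (kRhsK N ℓ ζ u).map (kTheta N) = kRhsC N ℓ u := by
  rw [kRhsK, kRhsC, Polynomial.map_mul, Polynomial.map_prod, Polynomial.map_sub,
    Polynomial.map_X, Polynomial.map_C]
  congr 1
  · rw [kTheta_apply, ModularCurve.coeffMap_qExpand, ModularCurve.coeffMap_qExpand,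
      qExpand_qExpand, qExpand_qExpand]
    congr 2
    exact (qExpand_congr (mul_assoc N ℓ ℓ) _).symm
  · have hζC : IsPrimitiveRoot (embC ζ) ℓ := hζ.map_of_injective embC.injective
    have h1 := prod_range_pow_primitiveRoot
      (fun ω : ℂ => (X - C (qExpand ℂ N (twistK ω (coeffMap embC (u : LaurentSeries Kbar))))
        : Polynomial (LaurentSeries ℂ)))
      (Complex.isPrimitiveRoot_exp ℓ (NeZero.ne ℓ)) hζC
    simp only [← kOmega_eq_pow] at h1
    rw [h1]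
    refine Finset.prod_congr rfl (fun b _ => ?_)
    rw [Polynomial.map_sub, Polynomial.map_X, Polynomial.map_C, kTheta_apply, coeffMap_twistK,
      map_pow]

section Main

variable (N ℓ : ℕ) [NeZero N] [NeZero ℓ]

theorem prod_kFam_eq (m y : ℤ) (h : (ℓ : ℤ) * m - (N : ℤ) * y = 1) (u : FF N) :
    ∏ i, (X - C (kFam N ℓ m y h i (heckeBetaBar Kbar N ℓ u)) : Polynomial (LaurentSeries ℂ)) =
      kRhsC N ℓ u := by
  rw [Fin.prod_univ_succ, kFam_zero, kEmbInf_apply, coe_heckeBetaBar, kRhsC]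
  congr 1
  simp only [kFam_succ, kEmb_beta]
  exact Fin.prod_univ_eq_prod_range
    (fun b : ℕ => (X - C (qExpand ℂ N (twistK (kOmega ℓ (b : ℤ))
      (coeffMap embC (u : LaurentSeries Kbar)))) : Polynomial (LaurentSeries ℂ))) ℓ

/-- characteristic polynomial of `β(u)` over `α(F_N)`, over `ℂ`. -/
theorem charpoly_alpha_beta_C (hℓ : ℓ.Prime) (hN : ¬ ℓ ∣ N) (u : FF N) :
    letI := algebraAlong (heckeAlphaBar Kbar N ℓ)
    haveI : FiniteDimensional (FF N) (FF (N * ℓ)) :=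
      Fermat.Agent.Red.HKMod.finiteAlong_heckeAlphaBar N ℓ
    (LinearMap.mulLeft (FF N) (heckeBetaBar Kbar N ℓ u)).charpoly.map (kIota N ℓ) =
      kRhsC N ℓ u := by
  letI := algebraAlong (heckeAlphaBar Kbar N ℓ)
  have hcop : IsCoprime (ℓ : ℤ) (N : ℤ) := by
    rw [Int.isCoprime_iff_gcd_eq_one, Int.gcd_natCast_natCast]
    exact (Nat.Prime.coprime_iff_not_dvd hℓ).mpr hN
  obtain ⟨a, c, hac⟩ := hcop
  have hb : (ℓ : ℤ) * a - (N : ℤ) * (-c) = 1 := by linear_combination hac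
  haveI : FiniteDimensional (FF N) (FF (N * ℓ)) :=
    Fermat.Agent.Red.HKMod.finiteAlong_heckeAlphaBar N ℓ
  haveI : Algebra.IsSeparable (FF N) (FF (N * ℓ)) := inferInstance
  haveI : Infinite (FF N) := inferInstance
  rw [charpoly_map_eq_prod_of_embeddings (K := FF N) (L := FF (N * ℓ)) (kIota N ℓ)
    (kFam N ℓ a (-c) hb) (kFam_injective N ℓ a (-c) hb hℓ.one_lt)
    (fun i x => kFam_alpha N ℓ a (-c) hb i x)
    (by rw [Fintype.card_fin]; exact (finrank_heckeAlphaBar N ℓ hℓ hN).symm)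
    (heckeBetaBar Kbar N ℓ u)]
  exact prod_kFam_eq N ℓ a (-c) hb u

/-- characteristic polynomial of `α(u)` over `β(F_N)`, over `ℂ`. -/
theorem charpoly_beta_alpha_C (hℓ : ℓ.Prime) (hN : ¬ ℓ ∣ N) (u : FF N) :
    letI := algebraAlong (heckeBetaBar Kbar N ℓ)
    haveI : FiniteDimensional (FF N) (FF (N * ℓ)) :=
      Fermat.Agent.Red.HKMod.finiteAlong_heckeBetaBar N ℓ
    (LinearMap.mulLeft (FF N) (heckeAlphaBar Kbar N ℓ u)).charpoly.map (kIota N ℓ) =
      kRhsC N ℓ u := by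
  letI := algebraAlong (heckeBetaBar Kbar N ℓ)
  have hcop : IsCoprime (ℓ : ℤ) (N : ℤ) := by
    rw [Int.isCoprime_iff_gcd_eq_one, Int.gcd_natCast_natCast]
    exact (Nat.Prime.coprime_iff_not_dvd hℓ).mpr hN
  obtain ⟨a, c, hac⟩ := hcop
  have hb : (ℓ : ℤ) * a - (N : ℤ) * (-c) = 1 := by linear_combination hac
  haveI : FiniteDimensional (FF N) (FF (N * ℓ)) :=
    Fermat.Agent.Red.HKMod.finiteAlong_heckeBetaBar N ℓ
  haveI : Algebra.IsSeparable (FF N) (FF (N * ℓ)) := inferInstance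
  haveI : Infinite (FF N) := inferInstance
  -- the embeddings over `β(F_N)` are the `kFam i ∘ w`, `w` the Fricke involution
  let w := kFricke N ℓ hℓ hN
  let e : Fin (ℓ + 1) → (FF (N * ℓ) →+* LaurentSeries ℂ) :=
    fun i => (kFam N ℓ a (-c) hb i).comp (w : FF (N * ℓ) →+* FF (N * ℓ))
  have he : Function.Injective e := by
    intro i j hij
    apply kFam_injective N ℓ a (-c) hb hℓ.one_lt
    ext1 f
    have h1 : e i (w f) = e j (w f) := by rw [hij]
    have h2 : w (w f) = f := kFricke_kFricke N ℓ hℓ hN f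
    simpa [e, h2] using h1
  have hcomm : ∀ i x, e i (algebraMap (FF N) (FF (N * ℓ)) x) = kIota N ℓ x := by
    intro i x
    show kFam N ℓ a (-c) hb i (w (heckeBetaBar Kbar N ℓ x)) = kIota N ℓ x
    rw [show w (heckeBetaBar Kbar N ℓ x) = heckeAlphaBar Kbar N ℓ x from
      kFricke_beta N ℓ hℓ hN x]
    exact kFam_alpha N ℓ a (-c) hb i x
  rw [charpoly_map_eq_prod_of_embeddings (K := FF N) (L := FF (N * ℓ)) (kIota N ℓ) e he hcomm
    (by rw [Fintype.card_fin]; exact (finrank_heckeBetaBar N ℓ hℓ hN).symm)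
    (heckeAlphaBar Kbar N ℓ u)]
  have h3 : ∀ i, e i (heckeAlphaBar Kbar N ℓ u) =
      kFam N ℓ a (-c) hb i (heckeBetaBar Kbar N ℓ u) := by
    intro i
    show kFam N ℓ a (-c) hb i (w (heckeAlphaBar Kbar N ℓ u)) = _
    rw [show w (heckeAlphaBar Kbar N ℓ u) = heckeBetaBar Kbar N ℓ u from
      kFricke_alpha N ℓ hℓ hN u]
  simp only [h3]
  exact prod_kFam_eq N ℓ a (-c) hb u

/-- **KRON: characteristic polynomial of `β(u)` over `α(F_N)`**, in the variable
`t = q^{1/ℓ}`. -/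
theorem charpoly_alpha_beta_eq (hℓ : ℓ.Prime) (hN : ¬ ℓ ∣ N) (ζ : Kbar)
    (hζ : IsPrimitiveRoot ζ ℓ) (u : FF N) :
    letI := algebraAlong (heckeAlphaBar Kbar N ℓ)
    haveI : FiniteDimensional (FF N) (FF (N * ℓ)) :=
      Fermat.Agent.Red.HKMod.finiteAlong_heckeAlphaBar N ℓ
    (LinearMap.mulLeft (FF N) (heckeBetaBar Kbar N ℓ u)).charpoly.map (kIotaK N ℓ) =
      kRhsK N ℓ ζ u := by
  apply Polynomial.map_injective (kTheta N) (kTheta_injective N)
  rw [Polynomial.map_map, kTheta_comp_kIotaK, map_kTheta_kRhsK N ℓ ζ hζ u]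
  exact charpoly_alpha_beta_C N ℓ hℓ hN u

/-- **KRON: characteristic polynomial of `α(u)` over `β(F_N)`**, in the variable
`t = q^{1/ℓ}`. -/
theorem charpoly_beta_alpha_eq (hℓ : ℓ.Prime) (hN : ¬ ℓ ∣ N) (ζ : Kbar)
    (hζ : IsPrimitiveRoot ζ ℓ) (u : FF N) :
    letI := algebraAlong (heckeBetaBar Kbar N ℓ)
    haveI : FiniteDimensional (FF N) (FF (N * ℓ)) :=
      Fermat.Agent.Red.HKMod.finiteAlong_heckeBetaBar N ℓ
    (LinearMap.mulLeft (FF N) (heckeAlphaBar Kbar N ℓ u)).charpoly.map (kIotaK N ℓ) =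
      kRhsK N ℓ ζ u := by
  apply Polynomial.map_injective (kTheta N) (kTheta_injective N)
  rw [Polynomial.map_map, kTheta_comp_kIotaK, map_kTheta_kRhsK N ℓ ζ hζ u]
  exact charpoly_beta_alpha_C N ℓ hℓ hN u

end Main

end Fermat.Agent.Red.Kron
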