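import Fermat.Agent.S24.CuspEmb
import Fermat.Agent.S24.AnRep
import Fermat.Agent.S28.Hermite
import Fermat.Agent.S28.Invariance
import Fermat.Agent.Red.Kron.Twist
import Fermat.Prelude.Def_ModularCurve_HeckeOperatorTotal
import Fermat.Prelude.Thm_ModularCurve_coeffMap_qExpand

/-!
# P-RED / KRON: the `ℓ + 1` conjugate embeddings of `F_{Nℓ}` over `α(F_N)`

`ℓ` is coprime to `N`.  For `b : ℤ` the matrix `δ_b ∈ Γ₀(N)` satisfies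
`(ℓ 0; 0 1) δ_b = γ' (1 b; 0 ℓ)` with `γ' ∈ Γ₀(N)`.  The expansion in `t = exp (2πiτ/ℓ)` of
`G ∘ δ_b` defines a ring homomorphism `kEmb b : F_{Nℓ} → ℂ((t))` with

* `kEmb b (α x) = x(t^ℓ)`,
* `kEmb b (β x) = x(ζ^b t)`,    `ζ = exp (2πi/ℓ)`,

while the standard expansion `kEmbInf` satisfies `kEmbInf (α x) = x(t^ℓ)`,
`kEmbInf (β x) = x(t^(ℓ²))`.
-/

set_option autoImplicit false

open ModularCurve AlgebraicCurve CongruenceSubgroup IntermediateField UpperHalfPlane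
open scoped MatrixGroups Manifold

noncomputable section

namespace Fermat.Agent.Red.Kron

open Fermat.Agent.S28 (HasTExp jAn jAt cEmb scaleH affH twist twistDil)
open Fermat.Agent.S24

/-! ## the matrices -/

/-- `δ_b = (m, m b + y; N, N b + ℓ)`, where `ℓ m - N y = 1`. -/
def kDelta (N ℓ : ℕ) (m y : ℤ) (h : (ℓ : ℤ) * m - (N : ℤ) * y = 1) (b : ℤ) : SL(2, ℤ) :=
  ⟨!![m, m * b + y; (N : ℤ), (N : ℤ) * b + (ℓ : ℤ)], by
    rw [Matrix.det_fin_two_of]; linear_combination h⟩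

/-- `γ' = (ℓ m, y; N, 1)`. -/
def kGamma (N ℓ : ℕ) (m y : ℤ) (h : (ℓ : ℤ) * m - (N : ℤ) * y = 1) : SL(2, ℤ) :=
  ⟨!![(ℓ : ℤ) * m, y; (N : ℤ), 1], by
    rw [Matrix.det_fin_two_of]; linear_combination h⟩

theorem kDelta_mem (N ℓ : ℕ) (m y : ℤ) (h : (ℓ : ℤ) * m - (N : ℤ) * y = 1) (b : ℤ) :
    kDelta N ℓ m y h b ∈ Gamma0 N := by
  rw [Gamma0_mem]
  simp [kDelta]

theorem kGamma_mem (N ℓ : ℕ) (m y : ℤ) (h : (ℓ : ℤ) * m - (N : ℤ) * y = 1) :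
    kGamma N ℓ m y h ∈ Gamma0 N := by
  rw [Gamma0_mem]
  simp [kGamma]

/-- the point identity `ℓ · (δ_b τ) = γ' ((τ + b) / ℓ)`. -/
theorem scaleH_kDelta_smul (N ℓ : ℕ) (hℓ : 0 < ℓ) (m y : ℤ)
    (h : (ℓ : ℤ) * m - (N : ℤ) * y = 1) (b : ℤ) (τ : ℍ) :
    scaleH ℓ (kDelta N ℓ m y h b • τ) =
      kGamma N ℓ m y h • affH (1 : ℝ) (b : ℝ) (ℓ : ℝ) one_pos (by exact_mod_cast hℓ) τ := by
  have hℓc : (ℓ : ℂ) ≠ 0 := by exact_mod_cast hℓ.ne'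
  have hden : (((kDelta N ℓ m y h b) 1 0 : ℤ) : ℂ) * (τ : ℂ) + (((kDelta N ℓ m y h b) 1 1 : ℤ) : ℂ)
      ≠ 0 := by
    have := UpperHalfPlane.denom_ne_zero ((kDelta N ℓ m y h b : SL(2, ℤ)) : GL (Fin 2) ℝ) τ
    rwa [ModularGroup.denom_apply] at this
  have hden' : (((kGamma N ℓ m y h) 1 0 : ℤ) : ℂ) *
      ((affH (1 : ℝ) (b : ℝ) (ℓ : ℝ) one_pos (by exact_mod_cast hℓ) τ : ℍ) : ℂ) +
      (((kGamma N ℓ m y h) 1 1 : ℤ) : ℂ) ≠ 0 := by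
    have := UpperHalfPlane.denom_ne_zero ((kGamma N ℓ m y h : SL(2, ℤ)) : GL (Fin 2) ℝ)
      (affH (1 : ℝ) (b : ℝ) (ℓ : ℝ) one_pos (by exact_mod_cast hℓ) τ)
    rwa [ModularGroup.denom_apply] at this
  have hc : ((ℓ : ℂ)) * (m : ℂ) - (N : ℂ) * (y : ℂ) = 1 := by exact_mod_cast h
  apply UpperHalfPlane.ext
  rw [Fermat.Agent.S28.coe_scaleH hℓ, UpperHalfPlane.coe_specialLinearGroup_apply,
    UpperHalfPlane.coe_specialLinearGroup_apply]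
  simp only [algebraMap_int_eq, Int.coe_castRingHom, Complex.ofReal_intCast]
  rw [Fermat.Agent.S28.coe_affH] at hden' ⊢
  simp only [kDelta, kGamma, Matrix.SpecialLinearGroup.coe_mk, Matrix.of_apply,
    Matrix.cons_val', Matrix.cons_val_zero, Matrix.cons_val_one,
    Matrix.cons_val_fin_one] at hden hden' ⊢
  push_cast at hden hden' ⊢
  field_simp
  ring

/-- transformation of a `Γ₀(N)`-invariant function: `P(ℓ δ_b τ) = P((τ + b)/ℓ)`. -/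
theorem invariant_scaleH_kDelta (N ℓ : ℕ) (hℓ : 0 < ℓ) (m y : ℤ)
    (h : (ℓ : ℤ) * m - (N : ℤ) * y = 1) (b : ℤ) {P : ℍ → ℂ}
    (hP : ∀ γ ∈ Gamma0 N, ∀ τ : ℍ, P (γ • τ) = P τ) (τ : ℍ) :
    P (scaleH ℓ (kDelta N ℓ m y h b • τ)) =
      P (affH (1 : ℝ) (b : ℝ) (ℓ : ℝ) one_pos (by exact_mod_cast hℓ) τ) := by
  rw [scaleH_kDelta_smul N ℓ hℓ m y h b τ]
  exact hP _ (kGamma_mem N ℓ m y h) _


/-! ## evaluation of cusp embeddings -/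

/-- S28's `twist` is `twistK` over `ℂ`. -/
theorem twist_eq_twistK (ω : ℂ) (s : LaurentSeries ℂ) : twist ω s = twistK ω s := rfl

/-- the root of unity `exp (2πi b / ℓ)`. -/
def kOmega (ℓ : ℕ) (b : ℤ) : ℂ :=
  Complex.exp (2 * Real.pi * Complex.I * (b : ℂ) / (ℓ : ℂ))

theorem kOmega_ne_zero (ℓ : ℕ) (b : ℤ) : kOmega ℓ b ≠ 0 := Complex.exp_ne_zero _

/-- the basic evaluation rule of the cusp embedding `h19_cuspEmb M g` (only the expansion at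
`∞` of the representing quotient is needed). -/
theorem kEval (M : ℕ) [NeZero M] (g : SL(2, ℤ)) (f : FF M) {P Q : ℍ → ℂ}
    {p₁ q₁ p q : LaurentSeries ℂ}
    (hP : HasTExp 1 P p₁) (hQ : HasTExp 1 Q q₁)
    (hrel : coeffMap embC (f : LaurentSeries Kbar) * q₁ = p₁)
    (hp : HasTExp M (fun τ => P (g⁻¹ • τ)) p) (hq : HasTExp M (fun τ => Q (g⁻¹ • τ)) q) :
    h19_cuspEmb M g f * q = p :=
  h19_emb_mul_eq_of_rel (h19_cuspExp_expSys M g) (h19_good_gen M g)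
    (IntermediateField.inclusion (h19_adjoin_coeffEmb_eq M).le f) hP hQ hrel hp hq

section Embeddings

variable (N ℓ : ℕ) [NeZero N] [NeZero ℓ] (m y : ℤ) (h : (ℓ : ℤ) * m - (N : ℤ) * y = 1) (b : ℤ)

/-- the embedding `F_{Nℓ} → ℂ((𝕋))`, `𝕋 = exp (2πiτ/(Nℓ))`, "expansion of `G ∘ δ_b`". -/
def kEmb : FF (N * ℓ) →+* LaurentSeries ℂ :=
  h19_cuspEmb (N * ℓ) (kDelta N ℓ m y h b)⁻¹

/-- the standard embedding `F_{Nℓ} → ℂ((𝕋))`, `𝕋 = exp (2πiτ/(Nℓ))`. -/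
def kEmbInf : FF (N * ℓ) →+* LaurentSeries ℂ :=
  h19_cuspEmb (N * ℓ) 1

theorem kEmbInf_apply (f : FF (N * ℓ)) :
    kEmbInf N ℓ f = qExpand ℂ (N * ℓ) (coeffMap embC (f : LaurentSeries Kbar)) := by
  obtain ⟨P, Q, hf⟩ := exists_isAn (N * ℓ) f
  obtain ⟨p₁, q₁, hP, hQ, hrel⟩ := hf.rel
  have hq₁ : q₁ ≠ 0 := h23_series_ne_zero hQ hf.Q_ne
  have hp : HasTExp (N * ℓ) (fun τ => P ((1 : SL(2, ℤ))⁻¹ • τ)) (qExpand ℂ (N * ℓ) p₁) :=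
    (HasTExp.of_one hP).congr (fun τ => by simp)
  have hq : HasTExp (N * ℓ) (fun τ => Q ((1 : SL(2, ℤ))⁻¹ • τ)) (qExpand ℂ (N * ℓ) q₁) :=
    (HasTExp.of_one hQ).congr (fun τ => by simp)
  have key := kEval (N * ℓ) 1 f hP hQ hrel hp hq
  rw [← hrel, map_mul] at key
  exact mul_right_cancel₀ ((map_ne_zero (qExpand ℂ (N * ℓ))).mpr hq₁) key

theorem kEmb_alpha (x : FF N) :
    kEmb N ℓ m y h b (heckeAlphaBar Kbar N ℓ x) =
      qExpand ℂ (N * ℓ) (coeffMap embC (x : LaurentSeries Kbar)) := by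
  obtain ⟨P, Q, hx⟩ := exists_isAn N x
  obtain ⟨p₁, q₁, hP, hQ, hrel⟩ := hx.rel
  have hq₁ : q₁ ≠ 0 := h23_series_ne_zero hQ hx.Q_ne
  have hp : HasTExp (N * ℓ) (fun τ => P ((kDelta N ℓ m y h b)⁻¹⁻¹ • τ))
      (qExpand ℂ (N * ℓ) p₁) :=
    (HasTExp.of_one hP).congr (fun τ => by
      rw [inv_inv]; exact (hx.invP _ (kDelta_mem N ℓ m y h b) τ).symm)
  have hq : HasTExp (N * ℓ) (fun τ => Q ((kDelta N ℓ m y h b)⁻¹⁻¹ • τ))
      (qExpand ℂ (N * ℓ) q₁) :=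
    (HasTExp.of_one hQ).congr (fun τ => by
      rw [inv_inv]; exact (hx.invQ _ (kDelta_mem N ℓ m y h b) τ).symm)
  have hrel' : coeffMap embC ((heckeAlphaBar Kbar N ℓ x : FF (N * ℓ)) : LaurentSeries Kbar) * q₁
      = p₁ := by
    rw [coe_heckeAlphaBar]; exact hrel
  have key := kEval (N * ℓ) (kDelta N ℓ m y h b)⁻¹ (heckeAlphaBar Kbar N ℓ x) hP hQ hrel' hp hq
  rw [← hrel, map_mul] at key
  exact mul_right_cancel₀ ((map_ne_zero (qExpand ℂ (N * ℓ))).mpr hq₁) key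

theorem kEmb_beta (x : FF N) :
    kEmb N ℓ m y h b (heckeBetaBar Kbar N ℓ x) =
      qExpand ℂ N (twistK (kOmega ℓ b) (coeffMap embC (x : LaurentSeries Kbar))) := by
  have hℓ : 0 < ℓ := Nat.pos_of_ne_zero (NeZero.ne ℓ)
  have hN : 0 < N := Nat.pos_of_ne_zero (NeZero.ne N)
  obtain ⟨P, Q, hx⟩ := exists_isAn N x
  obtain ⟨p₁, q₁, hP, hQ, hrel⟩ := hx.rel
  have hq₁ : q₁ ≠ 0 := h23_series_ne_zero hQ hx.Q_ne
  have hω : Complex.exp (2 * Real.pi * Complex.I * (b : ℂ) / ((ℓ : ℂ) * ((1 : ℕ) : ℂ)))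
      = kOmega ℓ b := by
    rw [kOmega, Nat.cast_one, mul_one]
  -- the expansions of the translates
  have haff : ∀ {F : ℍ → ℂ} {s : LaurentSeries ℂ}, HasTExp 1 F s →
      (∀ γ ∈ Gamma0 N, ∀ τ : ℍ, F (γ • τ) = F τ) →
      HasTExp (N * ℓ) (fun τ => F (scaleH ℓ ((kDelta N ℓ m y h b)⁻¹⁻¹ • τ)))
        (qExpand ℂ N (twistK (kOmega ℓ b) s)) := by
    intro F s hF hinv
    have h1 := hF.affine (M := 1) (N := N * ℓ) (a := 1) (d := ℓ) (e := N) (b := b) hℓ one_pos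
      (Nat.mul_pos hN hℓ) (by ring)
      (affH (1 : ℝ) (b : ℝ) (ℓ : ℝ) one_pos (by exact_mod_cast hℓ))
      (fun τ => by rw [Fermat.Agent.S28.coe_affH]; push_cast; ring)
    rw [hω] at h1
    refine h1.congr (fun τ => ?_)
    rw [inv_inv]
    exact (invariant_scaleH_kDelta N ℓ hℓ m y h b hinv τ).symm
  have hP' : HasTExp 1 (fun τ => P (scaleH ℓ τ)) (qExpand ℂ ℓ p₁) := hP.scale ℓ
  have hQ' : HasTExp 1 (fun τ => Q (scaleH ℓ τ)) (qExpand ℂ ℓ q₁) := hQ.scale ℓ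
  have hrel' : coeffMap embC ((heckeBetaBar Kbar N ℓ x : FF (N * ℓ)) : LaurentSeries Kbar) *
      qExpand ℂ ℓ q₁ = qExpand ℂ ℓ p₁ := by
    rw [coe_heckeBetaBar, ModularCurve.coeffMap_qExpand, ← map_mul, hrel]
  have key := kEval (N * ℓ) (kDelta N ℓ m y h b)⁻¹ (heckeBetaBar Kbar N ℓ x) hP' hQ' hrel'
    (haff hP hx.invP) (haff hQ hx.invQ)
  rw [← hrel, ← twistHom_apply _ (kOmega_ne_zero ℓ b), ← twistHom_apply _ (kOmega_ne_zero ℓ b),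
    map_mul, map_mul] at key
  exact mul_right_cancel₀ ((map_ne_zero (qExpand ℂ N)).mpr
    ((map_ne_zero (twistHom (kOmega ℓ b) (kOmega_ne_zero ℓ b))).mpr hq₁)) key

/-! ### distinctness -/

theorem coeff_embC_jBar_neg_one :
    (coeffMap embC ((jBar N : FF N) : LaurentSeries Kbar)).coeff (-1) = 1 := by
  rw [coe_jBar, coeffMap_coeff, coeffEmb_coeff, coeff_jq_neg_one, map_one, map_one]

theorem kEmb_beta_jBar_coeff :
    (kEmb N ℓ m y h b (heckeBetaBar Kbar N ℓ (jBar N))).coeff (-(N : ℤ)) = (kOmega ℓ b)⁻¹ := by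
  rw [kEmb_beta]
  have h1 : (-(N : ℤ)) = (N : ℤ) * (-1) := by ring
  rw [h1, qExpand_coeff_mul, coeff_twistK, coeff_embC_jBar_neg_one, one_mul, zpow_neg_one]

theorem kEmbInf_beta_jBar_coeff (hℓ : 1 < ℓ) :
    (kEmbInf N ℓ (heckeBetaBar Kbar N ℓ (jBar N))).coeff (-(N : ℤ)) = 0 := by
  rw [kEmbInf_apply]
  apply qExpand_coeff_of_not_dvd
  rintro ⟨c, hc⟩
  have hN : (N : ℤ) ≠ 0 := by exact_mod_cast NeZero.ne N
  have h2 : (ℓ : ℤ) * (-c) = 1 := by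
    have h3 : (N : ℤ) * ((ℓ : ℤ) * (-c)) = (N : ℤ) * 1 := by
      push_cast at hc
      linear_combination hc
    exact mul_left_cancel₀ hN h3
  have h4 : ((ℓ : ℤ)) ∣ 1 := ⟨-c, h2.symm⟩
  have h5 : (ℓ : ℤ) ≤ 1 := Int.le_of_dvd one_pos h4
  omega

theorem kEmb_ne_kEmbInf (hℓ : 1 < ℓ) : kEmb N ℓ m y h b ≠ kEmbInf N ℓ := by
  intro heq
  have h1 := kEmb_beta_jBar_coeff N ℓ m y h b
  rw [heq, kEmbInf_beta_jBar_coeff N ℓ hℓ] at h1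
  exact inv_ne_zero (kOmega_ne_zero ℓ b) h1.symm

omit [NeZero ℓ] in
theorem kOmega_eq_pow (c : ℕ) :
    kOmega ℓ (c : ℤ) = Complex.exp (2 * Real.pi * Complex.I / (ℓ : ℂ)) ^ c := by
  rw [kOmega, ← Complex.exp_nat_mul]
  congr 1
  push_cast
  ring

theorem kOmega_injOn {c c' : ℕ} (hc : c < ℓ) (hc' : c' < ℓ)
    (heq : kOmega ℓ (c : ℤ) = kOmega ℓ (c' : ℤ)) : c = c' := by
  rw [kOmega_eq_pow, kOmega_eq_pow] at heq
  exact (Complex.isPrimitiveRoot_exp ℓ (NeZero.ne ℓ)).pow_inj hc hc' heq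

theorem kEmb_injOn {c c' : ℕ} (hc : c < ℓ) (hc' : c' < ℓ)
    (heq : kEmb N ℓ m y h (c : ℤ) = kEmb N ℓ m y h (c' : ℤ)) : c = c' := by
  have h1 := kEmb_beta_jBar_coeff N ℓ m y h (c : ℤ)
  rw [heq, kEmb_beta_jBar_coeff] at h1
  exact kOmega_injOn ℓ hc hc' (inv_injective h1.symm)

end Embeddings

end Fermat.Agent.Red.Kron
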